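/-
GATE-R / S17, node GR-H-TOP-INST (helper10 = integrator), shared vocabulary of the TOP-INST leaves
(helper20's split, board 4974): the HEIGHT data of the `HeightFrame` for `J₀(N)(ℚ)` on the carriers
of `GR/H/TopInstCarrier.lean`, spelled through helper43's `PL` frame:

* `HN N n D  := PL.Hpl N n D`       (`HeightFrame.H`),
* `hsec N s  := PL.hV N (lev s) s.f` (`HeightFrame.hs`),
* `gam N     := genus - 1`           (`HeightFrame.γ`),

the dictionary carrier ↔ `PL` (`FN = PL.FNb`, `IsRatDiv`, `IsRatFun`, `Sec ↔ nonzero elements of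
`PL.V k`, `div0 ↔ PL.div0`, `degHom ↔ Divisor.degree`), and the (E1) fields `H_nonneg`, `H_zero`,
`H_add_inf` read off `PL/Level.lean`.
-/
import Fermat.Agent.GR.H.TopInstCarrier
import Fermat.Agent.GR.H.PL.Level

set_option autoImplicit false
set_option linter.unusedSectionVars false

noncomputable section

open AlgebraicCurve ModularCurve

namespace Fermat.Agent.GR.H.TopInst.Data

open Fermat.Agent.GR.H.TopInstCarrier Fermat.Agent.GR.H
open Fermat.Agent.GR.W.RatRep Fermat.Agent.GR.Top.S17Top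

local notation "Qb" => AlgebraicClosure ℚ
local notation "GQ" => (AlgebraicClosure ℚ ≃ₐ[ℚ] AlgebraicClosure ℚ)

variable (N : ℕ) [NeZero N]

/-- `HeightFrame.H`: the Plücker height of `L(n∞ - D) ⊆ L(n∞)` -/
def HN (n : ℕ) (D : RDiv N) : ℝ := PL.Hpl N (n : ℤ) (D : Divisor Qb (FN N))

/-- `HeightFrame.hs`: the height of the coordinate vector of a section -/
def hsec (s : Sec N) : ℝ := PL.hV N (s.lev : ℤ) s.f

/-- `HeightFrame.γ = g - 1` -/
def gam : ℝ := (PL.genus N : ℝ) - 1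

variable {N}

theorem HN_def (n : ℕ) (D : RDiv N) :
    HN N n D = PL.Hpl N (n : ℤ) (D : Divisor Qb (FN N)) := rfl

theorem hsec_def (s : Sec N) : hsec N s = PL.hV N (s.lev : ℤ) s.f := rfl

/-! ### the dictionary carrier ↔ `PL` -/

theorem isRatDiv_iff {D : Divisor Qb (FN N)} : IsRatDiv N D ↔ PL.IsRatDiv D := Iff.rfl

theorem isRatFun_iff {f : FN N} : IsRatFun N f ↔ PL.IsRatFun f := Iff.rfl

theorem RDiv.isRatPL (D : RDiv N) : PL.IsRatDiv (D : Divisor Qb (FN N)) := D.2.2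

/-- build a rational effective divisor from `PL` data -/
def mkRDiv (D : Divisor Qb (FN N)) (h0 : 0 ≤ D) (hr : PL.IsRatDiv D) : RDiv N := ⟨D, h0, hr⟩

@[simp] theorem coe_mkRDiv (D : Divisor Qb (FN N)) (h0 : 0 ≤ D) (hr : PL.IsRatDiv D) :
    ((mkRDiv D h0 hr : RDiv N) : Divisor Qb (FN N)) = D := rfl

theorem RDiv.ext' {D E : RDiv N} (h : (D : Divisor Qb (FN N)) = E) : D = E := Subtype.ext h

theorem coe_add' (D E : RDiv N) :
    ((D + E : RDiv N) : Divisor Qb (FN N)) = (D : Divisor Qb (FN N)) + E := rfl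

theorem coe_zero' : ((0 : RDiv N) : Divisor Qb (FN N)) = 0 := rfl

theorem coe_nsmul' (j : ℕ) (D : RDiv N) :
    ((j • D : RDiv N) : Divisor Qb (FN N)) = j • (D : Divisor Qb (FN N)) :=
  AddSubmonoidClass.coe_nsmul _ _

theorem coe_infD' : ((infD N : RDiv N) : Divisor Qb (FN N)) = Finsupp.single (PL.oo N) 1 := rfl

theorem coe_nsmul_infD (j : ℕ) :
    ((j • infD N : RDiv N) : Divisor Qb (FN N)) = Finsupp.single (PL.oo N) (j : ℤ) := by
  rw [coe_nsmul', coe_infD', Finsupp.smul_single]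
  simp

/-- the degree in `ℤ` -/
theorem degree_coe (D : RDiv N) :
    Divisor.degree (D : Divisor Qb (FN N)) = ((degHom N D : ℕ) : ℤ) := (coe_degHom D).symm

theorem degHom_eq_iff (D : RDiv N) (e : ℕ) :
    degHom N D = e ↔ Divisor.degree (D : Divisor Qb (FN N)) = (e : ℤ) := by
  rw [degree_coe]
  exact Nat.cast_inj.symm

/-- a section is a nonzero element of `PL.V (lev s)` -/
theorem Sec.mem_V (s : Sec N) : s.f ∈ PL.V (N := N) (s.lev : ℤ) := by
  refine PL.mem_I.2 ⟨s.rat, ?_⟩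
  have : PL.twist (N := N) (s.lev : ℤ) 0 = Finsupp.single (cuspInf N) (s.lev : ℤ) := by
    unfold PL.twist
    rw [sub_zero]
  rw [this]
  exact s.mem

theorem mem_V_iff {k : ℕ} {f : FN N} :
    f ∈ PL.V (N := N) (k : ℤ) ↔
      IsRatFun N f ∧ f ∈ riemannRochSpace (Finsupp.single (cuspInf N) (k : ℤ)) := by
  have : PL.twist (N := N) (k : ℤ) 0 = Finsupp.single (cuspInf N) (k : ℤ) := by
    unfold PL.twist
    rw [sub_zero]
  rw [PL.mem_I, this]
  rfl

/-- a nonzero element of `PL.V k` is a section of level `k` -/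
def Sec.ofV (k : ℕ) (f : FN N) (hf : f ∈ PL.V (N := N) (k : ℤ)) (h0 : f ≠ 0) : Sec N where
  lev := k
  f := f
  ne := h0
  rat := (mem_V_iff.1 hf).1
  mem := (mem_V_iff.1 hf).2

@[simp] theorem Sec.ofV_lev (k : ℕ) (f : FN N) (hf : f ∈ PL.V (N := N) (k : ℤ)) (h0 : f ≠ 0) :
    (Sec.ofV k f hf h0).lev = k := rfl

@[simp] theorem Sec.ofV_f (k : ℕ) (f : FN N) (hf : f ∈ PL.V (N := N) (k : ℤ)) (h0 : f ≠ 0) :
    (Sec.ofV k f hf h0).f = f := rfl

/-- `div0` is `PL.div0` -/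
theorem coe_div0_eq (s : Sec N) :
    ((div0 s : RDiv N) : Divisor Qb (FN N)) = PL.div0 (s.lev : ℤ) s.f := rfl

theorem hsec_ofV (k : ℕ) (f : FN N) (hf : f ∈ PL.V (N := N) (k : ℤ)) (h0 : f ≠ 0) :
    hsec N (Sec.ofV k f hf h0) = PL.hV N (k : ℤ) f := rfl

/-! ### the (E1) fields -/

/-- **`HeightFrame.H_nonneg`** -/
theorem HN_nonneg (n : ℕ) (D : RDiv N) : 0 ≤ HN N n D := PL.Hpl_nonneg _ _

/-- **`HeightFrame.H_zero`** -/
theorem HN_zero (n : ℕ) : HN N n 0 = 0 := PL.Hpl_zero _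

/-- **`HeightFrame.H_add_inf`** (no threshold needed beyond `1 ≤ n`) -/
theorem HN_add_inf (n : ℕ) (D : RDiv N) (hn : 1 ≤ n) :
    HN N n (D + infD N) = HN N (n - 1) D := by
  obtain ⟨k, rfl⟩ : ∃ k, n = k + 1 := ⟨n - 1, by omega⟩
  rw [Nat.add_sub_cancel]
  exact PL.Hpl_add_oo k D.nonneg

end Fermat.Agent.GR.H.TopInst.Data
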