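/-
GATE-R / S17, leaf GR-H-TI-SMALL (helper62): the field `small` of helper20's `HeightFrame`
(`GR/H/Canon.lean`) for `J₀(N)(ℚ)`, from helper95's small-vector lemma
(`GR/H/SmallVecMinors.exists_small_vecMul`) applied to helper43's coordinate matrix
`PL.coordMat N m D` of `I_m(D) = L_ℚ(m∞ - D)` in `V_m = L_ℚ(m∞)`.

* `coordFun_comb`      : coordinates of a `ℚ`-combination of the basis `bI` = `c ᵥ* coordMat`;
* `exists_small_fun`   : `D ≥ 0`, `dim I_m(D) > 0` ⟹ a nonzero `f ∈ I_m(D)` with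
  `dim I_m(D) · hV m f ≤ Hpl m D + dim · log dim`   (PL vocabulary);
* `exists_small_fun_of_threshold` : the same with `dim = m - deg D + 1 - g` (Riemann threshold);
* `small_field`        : the `HeightFrame.small` field in helper10's carrier vocabulary
  (`RDiv N`, `Sec N`, `degHom`, `div0` of `GR/H/TopInstCarrier.lean`), with
  `H m D := PL.Hpl N m ↑D`, `hs s := PL.hV N s.lev s.f`, `γ := genus - 1`, threshold explicit;
* `small_leaf`         : the field `small` of `TopInst.Leaves N Good` VERBATIM (`HN`, `hsec`, `gam`).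
-/
import Fermat.Agent.GR.H.PL.Coord
import Fermat.Agent.GR.H.SmallVecMinors
import Fermat.Agent.GR.H.TopInstCarrier
import Fermat.Agent.GR.H.TopInst.Data

set_option autoImplicit false

noncomputable section

open AlgebraicCurve ModularCurve
open Fermat.Agent.GR.H.CauchyBinet Fermat.Agent.GR.H.SmallVec Fermat.Agent.GR.H.SmallVecMinors
open scoped Matrix

namespace Fermat.Agent.GR.H.TopInst.Small

open Fermat.Agent.GR.H.PL

local notation "Qb" => AlgebraicClosure ℚ
local notation "GQ" => (AlgebraicClosure ℚ ≃ₐ[ℚ] AlgebraicClosure ℚ)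

variable {N : ℕ} [NeZero N]

/-- the basis vectors of `I_m(D)` lie in `V_m` when `D ≥ 0` -/
theorem bI_mem_V {m : ℤ} {D : Divisor Qb (FNb N)} (hD : 0 ≤ D) (a : Fin (dI N m D)) :
    ((bI N m D a : I m D) : FNb N) ∈ V (N := N) m :=
  I_le_V hD (bI N m D a).2

/-- coordinates of a `ℚ`-combination of the basis `bI` of `I_m(D)`: `c ᵥ* coordMat`. -/
theorem coordFun_comb {m : ℤ} {D : Divisor Qb (FNb N)} (hD : 0 ≤ D)
    (c : Fin (dI N m D) → ℚ) :
    coordFun N m (∑ a, c a • ((bI N m D a : I m D) : FNb N)) = c ᵥ* coordMat N m D := by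
  rw [coordFun_sum _ _ fun a _ => Submodule.smul_mem _ _ (bI_mem_V hD a)]
  funext j
  rw [Finset.sum_apply, Matrix.vecMul, dotProduct]
  refine Finset.sum_congr rfl fun a _ => ?_
  rw [coordFun_smul _ (bI_mem_V hD a)]
  rfl

/-- the rows of `coordMat` are linearly independent (`D ≥ 0`) -/
theorem linearIndependent_coordMat {m : ℤ} {D : Divisor Qb (FNb N)} (hD : 0 ≤ D) :
    LinearIndependent ℚ (fun a => coordMat N m D a) := by
  have h1 : LinearIndependent ℚ (fun a => ((bI N m D a : I m D) : FNb N)) :=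
    (bI N m D).linearIndependent.map' (I m D).subtype (Submodule.ker_subtype _)
  exact linearIndependent_famMat _ (fun a => bI_mem_V hD a) h1

/-- **small function, PL vocabulary**: for `D ≥ 0` with `I_m(D) ≠ 0` there is a nonzero
`f ∈ I_m(D)` with `dim · hV m f ≤ Hpl m D + dim · log dim`. -/
theorem exists_small_fun {m : ℤ} {D : Divisor Qb (FNb N)} (hD : 0 ≤ D)
    (hpos : 0 < dI N m D) :
    ∃ f : FNb N, f ∈ I m D ∧ f ≠ 0 ∧
      (dI N m D : ℝ) * hV N m f ≤
        Hpl N m D + (dI N m D : ℝ) * Real.log (dI N m D) := by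
  classical
  have : Nonempty (Fin (dI N m D)) := ⟨⟨0, hpos⟩⟩
  have hW := linearIndependent_coordMat (N := N) (m := m) hD
  obtain ⟨x, c, hx0, -, hxc, hle⟩ := exists_small_vecMul (coordMat N m D) hW
  refine ⟨∑ a, c a • ((bI N m D a : I m D) : FNb N), ?_, ?_, ?_⟩
  · exact Submodule.sum_mem _ fun a _ => Submodule.smul_mem _ _ (bI N m D a).2
  · intro h0
    apply hx0
    apply castLin_injective (Fin (dV N m))
    rw [map_zero, hxc, ← coordFun_comb hD c, h0, coordFun_of_mem (Submodule.zero_mem _)]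
    exact map_zero _
  · have hk : (0 : ℝ) < (dI N m D : ℝ) := by exact_mod_cast hpos
    have hcard : Fintype.card (Fin (dI N m D)) = dI N m D := Fintype.card_fin _
    rw [hcard] at hle
    have hh : hV N m (∑ a, c a • ((bI N m D a : I m D) : FNb N)) =
        Height.logHeight (castLin (Fin (dV N m)) x) := by
      unfold hV
      rw [coordFun_comb hD c, hxc]
    rw [hh]
    have h2 := mul_le_mul_of_nonneg_left hle hk.le
    have h3 : (dI N m D : ℝ) * (1 / (dI N m D : ℝ) * Height.logHeight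
        (minorsAll (coordMat N m D)) + Real.log (dI N m D)) =
        Height.logHeight (minorsAll (coordMat N m D)) +
          (dI N m D : ℝ) * Real.log (dI N m D) := by
      field_simp
    rw [h3] at h2
    exact h2

/-- `x · log x ≤ y · log y` for natural numbers `x ≤ y` (with `0 · log 0 = 0`). -/
theorem natCast_mul_log_le {x y : ℕ} (h : x ≤ y) :
    (x : ℝ) * Real.log x ≤ (y : ℝ) * Real.log y := by
  rcases Nat.eq_zero_or_pos x with rfl | hx
  · simp only [Nat.cast_zero, zero_mul]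
    rcases Nat.eq_zero_or_pos y with rfl | hy
    · simp
    · exact mul_nonneg (Nat.cast_nonneg _) (Real.log_nonneg (by exact_mod_cast hy))
  · have hx1 : (1 : ℝ) ≤ x := by exact_mod_cast hx
    have hxy : (x : ℝ) ≤ y := by exact_mod_cast h
    have hl : Real.log x ≤ Real.log y := Real.log_le_log (by linarith) hxy
    have hl0 : 0 ≤ Real.log x := Real.log_nonneg hx1
    exact mul_le_mul hxy hl hl0 (by linarith)

/-- **small function under the Riemann threshold**: if `c` is a Riemann threshold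
(`PL.exists_threshold`) and `g ≤ c`, then for every rational `D ≥ 0` and `m ≥ deg D + c` there is
a nonzero `f ∈ I_m(D)` with `(m - deg D + 1 - g) · hV m f ≤ Hpl m D + (m+1) · log (m+1)`. -/
theorem exists_small_fun_of_threshold {c : ℤ}
    (hc : ∀ (m : ℤ) (D : Divisor Qb (FNb N)), IsRatDiv D → c + Divisor.degree D ≤ m →
      (Module.finrank ℚ (I m D) : ℤ) = m - Divisor.degree D + 1 - genus N)
    (hcg : (genus N : ℤ) ≤ c) {m : ℕ} {D : Divisor Qb (FNb N)} (hD : 0 ≤ D)
    (hDr : IsRatDiv D) (hm : c + Divisor.degree D ≤ (m : ℤ)) :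
    ∃ f : FNb N, f ∈ I (m : ℤ) D ∧ f ≠ 0 ∧
      ((m : ℝ) - (Divisor.degree D : ℝ) + 1 - (genus N : ℝ)) * hV N (m : ℤ) f ≤
        Hpl N (m : ℤ) D + ((m : ℝ) + 1) * Real.log ((m : ℝ) + 1) := by
  have hdim : ((dI N (m : ℤ) D : ℕ) : ℤ) = (m : ℤ) - Divisor.degree D + 1 - genus N :=
    hc (m : ℤ) D hDr hm
  have hdeg0 : 0 ≤ Divisor.degree D := Fermat.Agent.GR.H.TopInstCarrier.degree_nonneg hD
  have hpos : 0 < dI N (m : ℤ) D := by
    have : (0 : ℤ) < ((dI N (m : ℤ) D : ℕ) : ℤ) := by rw [hdim]; omega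
    exact_mod_cast this
  have hle : dI N (m : ℤ) D ≤ m + 1 := by
    have : ((dI N (m : ℤ) D : ℕ) : ℤ) ≤ ((m + 1 : ℕ) : ℤ) := by
      rw [hdim]; push_cast; omega
    exact_mod_cast this
  obtain ⟨f, hf, hf0, hsm⟩ := exists_small_fun (N := N) (m := (m : ℤ)) hD hpos
  refine ⟨f, hf, hf0, ?_⟩
  have hdimR : ((dI N (m : ℤ) D : ℕ) : ℝ) =
      (m : ℝ) - (Divisor.degree D : ℝ) + 1 - (genus N : ℝ) := by
    have := congrArg (Int.cast : ℤ → ℝ) hdim
    push_cast at this
    exact this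
  have hlog := natCast_mul_log_le hle
  push_cast at hlog
  rw [← hdimR]
  linarith

/-! ### the field `small` in the carrier vocabulary of `GR/H/TopInstCarrier.lean` -/

open Fermat.Agent.GR.H.TopInstCarrier in
/-- **`HeightFrame.small` for `J₀(N)(ℚ)`**, field type VERBATIM with
`𝔇 := RDiv N`, `Sec := Sec N`, `deg := degHom N`, `lev := Sec.lev`, `div0 := div0`,
`H m D := PL.Hpl N m ↑D`, `hs s := PL.hV N s.lev s.f`, `γ := genus N - 1`, and ANY `c₀ : ℕ` which
is at least a Riemann threshold `c` (`PL.exists_threshold`) and at least the genus. -/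
theorem small_field {c : ℤ}
    (hc : ∀ (m : ℤ) (D : Divisor Qb (FNb N)), IsRatDiv D → c + Divisor.degree D ≤ m →
      (Module.finrank ℚ (I m D) : ℤ) = m - Divisor.degree D + 1 - genus N)
    (c₀ : ℕ) (hc₀ : c ≤ (c₀ : ℤ)) (hg₀ : genus N ≤ c₀) :
    ∀ M : ℕ, ∃ C : ℝ, ∀ (m : ℕ) (D : RDiv N), m ≤ M → degHom N D + c₀ ≤ m →
      ∃ (s : Sec N) (D' : RDiv N), s.lev = m ∧ div0 s = D + D' ∧
        ((m : ℝ) - (degHom N D : ℝ) - ((genus N : ℝ) - 1)) * hV N (s.lev : ℤ) s.f ≤
          Hpl N (m : ℤ) (D : Divisor Qb (FNb N)) + C := by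
  intro M
  refine ⟨((M : ℝ) + 1) * Real.log ((M : ℝ) + 1), fun m D hmM hm => ?_⟩
  -- the threshold property also holds for `c₀`
  have hc' : ∀ (m : ℤ) (D : Divisor Qb (FNb N)), IsRatDiv D →
      (c₀ : ℤ) + Divisor.degree D ≤ m →
      (Module.finrank ℚ (I m D) : ℤ) = m - Divisor.degree D + 1 - genus N :=
    fun m D hD h => hc m D hD (by linarith)
  have hDr : IsRatDiv (D : Divisor Qb (FNb N)) := D.isRat
  have hdeg : Divisor.degree (D : Divisor Qb (FNb N)) = ((degHom N D : ℕ) : ℤ) :=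
    (coe_degHom D).symm
  have hm' : (c₀ : ℤ) + Divisor.degree (D : Divisor Qb (FNb N)) ≤ (m : ℤ) := by
    rw [hdeg]; exact_mod_cast (by omega : c₀ + degHom N D ≤ m)
  obtain ⟨f, hf, hf0, hsm⟩ := exists_small_fun_of_threshold (N := N) hc'
    (by exact_mod_cast hg₀) D.nonneg hDr hm'
  have hfV : f ∈ V (N := N) (m : ℤ) := I_le_V D.nonneg hf
  -- the section
  have hmemL : f ∈ riemannRochSpace (Finsupp.single (oo N) ((m : ℕ) : ℤ)) := by
    have h := (mem_I.1 hfV).2
    unfold twist at h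
    rwa [sub_zero] at h
  let s : Sec N := ⟨m, f, hf0, (mem_I.1 hf).1, hmemL⟩
  -- the complementary divisor `div0 s - D`
  have hD'nn : (0 : Divisor Qb (FNb N)) ≤ ((div0 s : RDiv N) : Divisor Qb (FNb N)) -
      (D : Divisor Qb (FNb N)) := by
    have h := Fermat.Agent.RR.EffRep.nonneg_add_divOf (mem_I.1 hf).2 hf0
    unfold twist at h
    rw [coe_div0]
    have : Finsupp.single (oo N) (m : ℤ) - (D : Divisor Qb (FNb N)) +
        Fermat.Agent.RR.Bound.divOf Qb f =
        Fermat.Agent.RR.Bound.divOf Qb f + Finsupp.single (oo N) ((m : ℕ) : ℤ) -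
          (D : Divisor Qb (FNb N)) := by
      abel
    rw [this] at h
    exact h
  have hD'rat : Fermat.Agent.GR.H.TopInstCarrier.IsRatDiv N
      (((div0 s : RDiv N) : Divisor Qb (FNb N)) - (D : Divisor Qb (FNb N))) := by
    intro σ
    rw [smul_sub, (div0 s).isRat σ, D.isRat σ]
  let D' : RDiv N := ⟨((div0 s : RDiv N) : Divisor Qb (FNb N)) - (D : Divisor Qb (FNb N)),
    hD'nn, hD'rat⟩
  refine ⟨s, D', rfl, ?_, ?_⟩
  · apply Subtype.ext
    show ((div0 s : RDiv N) : Divisor Qb (FNb N)) =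
      (D : Divisor Qb (FNb N)) + (((div0 s : RDiv N) : Divisor Qb (FNb N)) -
        (D : Divisor Qb (FNb N)))
    abel
  · show ((m : ℝ) - (degHom N D : ℝ) - ((genus N : ℝ) - 1)) * hV N ((m : ℕ) : ℤ) f ≤ _
    have hdegR : (Divisor.degree (D : Divisor Qb (FNb N)) : ℝ) = (degHom N D : ℝ) := by
      rw [hdeg]; push_cast; rfl
    rw [hdegR] at hsm
    have hlog : ((m : ℝ) + 1) * Real.log ((m : ℝ) + 1) ≤
        ((M : ℝ) + 1) * Real.log ((M : ℝ) + 1) := by
      have := natCast_mul_log_le (Nat.succ_le_succ hmM)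
      push_cast at this
      exact this
    have heq : (m : ℝ) - (degHom N D : ℝ) - ((genus N : ℝ) - 1) =
        (m : ℝ) - (degHom N D : ℝ) + 1 - (genus N : ℝ) := by ring
    rw [heq]
    linarith

open Fermat.Agent.GR.H.TopInstCarrier Fermat.Agent.GR.H.TopInst.Data in
/-- **the leaf `small` of `Fermat.Agent.GR.H.TopInst.Leaves N Good`, VERBATIM** (helper10's
vocabulary `HN`, `hsec`, `gam` of `GR/H/TopInst/Data.lean`); the threshold is
`max (Riemann threshold) (genus)`. -/
theorem small_leaf (N : ℕ) [NeZero N] :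
    ∃ c : ℕ, ∀ M : ℕ, ∃ C : ℝ, ∀ (n : ℕ) (D : RDiv N), n ≤ M → degHom N D + c ≤ n →
      ∃ (s : Sec N) (D' : RDiv N), s.lev = n ∧ div0 s = D + D' ∧
        ((n : ℝ) - degHom N D - gam N) * hsec N s ≤ HN N n D + C := by
  obtain ⟨c, hc⟩ := exists_threshold N
  refine ⟨max c.toNat (genus N), fun M => ?_⟩
  have h1 : c ≤ ((max c.toNat (genus N) : ℕ) : ℤ) := by
    have h := Int.self_le_toNat c
    have h2 : (c.toNat : ℤ) ≤ ((max c.toNat (genus N) : ℕ) : ℤ) := by
      exact_mod_cast le_max_left _ _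
    exact le_trans h h2
  obtain ⟨C, hC⟩ := small_field (N := N) hc (max c.toNat (genus N)) h1 (le_max_right _ _) M
  exact ⟨C, fun n D hn hD => hC n D hn hD⟩

end Fermat.Agent.GR.H.TopInst.Small
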