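/-
GATE-R / S17, node GR-H-TOP-INST (helper10 = integrator): re-spelling of helper3's
`Star/Frame.star_bar / starInf1_bar / starInf2_bar` (PL vocabulary, `GoodFam`) as the fields
`star`, `starInf1`, `starInf2` of `TopInst.Leaves N Good`, for ANY predicate `Good` on `RDiv N`
that implies "reduced and off `∞`" (hypothesis `hGood`), from helper3's two binders
`Family.LTBar N c` and `SpecBar.AlphaBar N c`.
-/
import Fermat.Agent.GR.H.TopInst.Data
import Fermat.Agent.GR.H.Star.Frame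

set_option autoImplicit false
set_option linter.unusedSectionVars false

noncomputable section

open AlgebraicCurve ModularCurve

namespace Fermat.Agent.GR.H.TopInst.StarLeaf

open Fermat.Agent.GR.H.TopInstCarrier Fermat.Agent.GR.H.TopInst.Data Fermat.Agent.GR.H
open Fermat.Agent.GR.H.Star.Frame Fermat.Agent.GR.H.Star.Family Fermat.Agent.GR.H.Star.SpecBar

local notation "Qb" => AlgebraicClosure ℚ

variable (N : ℕ) [NeZero N]

/-- "reduced and off `∞`" -/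
def RedOff (D : RDiv N) : Prop :=
  (∀ v, (D : Divisor Qb (FN N)) v ≤ 1) ∧ (D : Divisor Qb (FN N)) (PL.oo N) = 0

variable {N}

theorem goodFam3 {D₁ D₂ D₃ : RDiv N} (h : RedOff N (D₁ + D₂ + D₃)) :
    GoodFam (N := N) ![(D₁ : Divisor Qb (FN N)), (D₂ : Divisor Qb (FN N)),
      (D₃ : Divisor Qb (FN N))] := by
  have hsum : ∑ a, ![(D₁ : Divisor Qb (FN N)), (D₂ : Divisor Qb (FN N)),
      (D₃ : Divisor Qb (FN N))] a = ((D₁ + D₂ + D₃ : RDiv N) : Divisor Qb (FN N)) := by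
    simp [Fin.sum_univ_three]
  refine ⟨fun a => ?_, fun a => ?_, ?_, ?_⟩
  · fin_cases a
    · exact D₁.nonneg
    · exact D₂.nonneg
    · exact D₃.nonneg
  · fin_cases a
    · exact RDiv.isRatPL D₁
    · exact RDiv.isRatPL D₂
    · exact RDiv.isRatPL D₃
  · rw [hsum]; exact h.1
  · rw [hsum]; exact h.2

theorem goodFam2 {D₁ D₂ : RDiv N} (h : RedOff N (D₁ + D₂)) :
    GoodFam (N := N) ![(D₁ : Divisor Qb (FN N)), (D₂ : Divisor Qb (FN N))] := by
  have hsum : ∑ a, ![(D₁ : Divisor Qb (FN N)), (D₂ : Divisor Qb (FN N))] a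
      = ((D₁ + D₂ : RDiv N) : Divisor Qb (FN N)) := by
    simp [Fin.sum_univ_two]
  refine ⟨fun a => ?_, fun a => ?_, ?_, ?_⟩
  · fin_cases a
    · exact D₁.nonneg
    · exact D₂.nonneg
  · fin_cases a
    · exact RDiv.isRatPL D₁
    · exact RDiv.isRatPL D₂
  · rw [hsum]; exact h.1
  · rw [hsum]; exact h.2

theorem goodFam1 {D : RDiv N} (h : RedOff N D) :
    GoodFam (N := N) ![(D : Divisor Qb (FN N))] := by
  have hsum : ∑ a, ![(D : Divisor Qb (FN N))] a = (D : Divisor Qb (FN N)) := by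
    simp
  refine ⟨fun a => ?_, fun a => ?_, ?_, ?_⟩
  · fin_cases a
    exact D.nonneg
  · fin_cases a
    exact RDiv.isRatPL D
  · rw [hsum]; exact h.1
  · rw [hsum]; exact h.2

variable (N)

/-- **`Leaves.star`** -/
theorem star_field {c : ℕ} (hLT : LTBar N c) (hα : AlphaBar N c) (Good : RDiv N → Prop)
    (hGood : ∀ D : RDiv N, Good D → RedOff N D) :
    ∃ c : ℕ, ∀ M : ℕ, ∃ C : ℝ, ∀ (n : ℕ) (D₁ D₂ D₃ : RDiv N), n ≤ M →
      Good (D₁ + D₂ + D₃) → degHom N D₁ + degHom N D₂ + degHom N D₃ + c ≤ n →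
      |HN N n (D₁ + D₂ + D₃) - HN N n (D₁ + D₂) - HN N n (D₁ + D₃) - HN N n (D₂ + D₃)
        + HN N n D₁ + HN N n D₂ + HN N n D₃| ≤ C := by
  refine ⟨c, fun M => ?_⟩
  obtain ⟨C, hC⟩ := star_bar hLT hα M
  refine ⟨C, fun n D₁ D₂ D₃ hn hG hdeg => ?_⟩
  exact hC n D₁ D₂ D₃ (degHom N D₁) (degHom N D₂) (degHom N D₃) hn (goodFam3 (hGood _ hG))
    (degree_coe D₁) (degree_coe D₂) (degree_coe D₃) hdeg

/-- **`Leaves.starInf1`** -/
theorem starInf1_field {c : ℕ} (hLT : LTBar N c) (hα : AlphaBar N c) (Good : RDiv N → Prop)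
    (hGood : ∀ D : RDiv N, Good D → RedOff N D) :
    ∃ c : ℕ, ∀ M : ℕ, ∃ C : ℝ, ∀ (n : ℕ) (D₁ D₂ : RDiv N), n ≤ M → Good (D₁ + D₂) →
      degHom N D₁ + degHom N D₂ + c + 1 ≤ n →
      |(HN N n (D₁ + D₂) - HN N (n - 1) (D₁ + D₂)) - (HN N n D₁ - HN N (n - 1) D₁)
        - (HN N n D₂ - HN N (n - 1) D₂)| ≤ C := by
  refine ⟨c, fun M => ?_⟩
  obtain ⟨C, hC⟩ := starInf1_bar hLT hα M
  refine ⟨C, fun n D₁ D₂ hn hG hdeg => ?_⟩
  exact hC n D₁ D₂ (degHom N D₁) (degHom N D₂) hn (goodFam2 (hGood _ hG))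
    (degree_coe D₁) (degree_coe D₂) hdeg

/-- **`Leaves.starInf2`** -/
theorem starInf2_field {c : ℕ} (hLT : LTBar N c) (hα : AlphaBar N c) (Good : RDiv N → Prop)
    (hGood : ∀ D : RDiv N, Good D → RedOff N D) :
    ∃ c : ℕ, ∀ M : ℕ, ∃ C : ℝ, ∀ (n : ℕ) (D : RDiv N), n ≤ M → Good D →
      degHom N D + c + 2 ≤ n →
      |HN N n D - 2 * HN N (n - 1) D + HN N (n - 2) D| ≤ C := by
  refine ⟨c, fun M => ?_⟩
  obtain ⟨C, hC⟩ := starInf2_bar hLT hα M
  refine ⟨C, fun n D hn hG hdeg => ?_⟩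
  exact hC n D (degHom N D) hn (goodFam1 (hGood _ hG)) (degree_coe D) hdeg

end Fermat.Agent.GR.H.TopInst.StarLeaf
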