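/-
GATE-R / S17, node GR-H-TOP-INST (helper10 = integrator), part 5: the frozen S17 conclusion from
the LAST open binders of the height side:

* `hLT : Family.LTBar N c`, `hα : SpecBar.AlphaBar N c`   (helper3's two STAR binders),
* `Good` with `hGood`, `good_zero`, `good_of_add`, `move1`, `move2`   (TI-MOVE).

Everything else is plugged: W = `GR/W/Final.weakMW_three` (helper19), SMALL = `Small.small_leaf`
(helper62), STAR shapes = `StarLeaf` (helper3's `Frame`), the rest = `Plug.lean`.
-/
import Fermat.Agent.GR.H.TopInst.Plug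
import Fermat.Agent.GR.H.TopInst.StarLeaf
import Fermat.Agent.GR.H.TopInst.Small
import Fermat.Agent.GR.W.Final

set_option autoImplicit false
set_option linter.unusedSectionVars false

noncomputable section

open AlgebraicCurve ModularCurve

namespace Fermat.Agent.GR.H.TopInst.Assemble

open Fermat.Agent.GR.H.TopInstCarrier Fermat.Agent.GR.H.TopInst.Data Fermat.Agent.GR.H
open Fermat.Agent.GR.H.Star.Family Fermat.Agent.GR.H.Star.SpecBar
open Fermat.Agent.GR.W.RatRep Fermat.Agent.GR.Top.S17Top

local notation "Qb" => AlgebraicClosure ℚ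

variable (N : ℕ) [NeZero N]

/-- `Leaves N Good` from helper3's two STAR binders and the TI-MOVE leaf. -/
theorem leaves_of_binders {c : ℕ} (hLT : LTBar N c) (hα : AlphaBar N c)
    (Good : RDiv N → Prop) (hGood : ∀ D : RDiv N, Good D → StarLeaf.RedOff N D)
    (good_zero : Good 0)
    (good_of_add : ∀ D D' : RDiv N, Good (D + D') → Good D)
    (move1 : ∃ d : ℕ, ∀ (c : ↥(MW N)) (k : ℕ) (T : RDiv N), d ≤ k → Good T →
      ∃ D : RDiv N, degHom N D = k ∧ clHom N D = c ∧ Good (D + T))
    (move2 : ∃ d : ℕ, ∀ (D T : RDiv N) (k : ℕ), Good (D + T) → degHom N D + d ≤ k →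
      ∃ (s : Sec N) (D' : RDiv N), s.lev = k ∧ div0 s = D + D' ∧ Good (D + D' + T)) :
    Leaves N Good :=
  Plug.leaves_of_rest N Good good_zero good_of_add
    (StarLeaf.star_field N hLT hα Good hGood)
    (StarLeaf.starInf1_field N hLT hα Good hGood)
    (StarLeaf.starInf2_field N hLT hα Good hGood)
    (Small.small_leaf N) move1 move2

/-- **The frozen S17 conclusion** from helper3's two STAR binders and the TI-MOVE leaf. -/
theorem s17_of_binders {c : ℕ} (hLT : LTBar N c) (hα : AlphaBar N c)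
    (Good : RDiv N → Prop) (hGood : ∀ D : RDiv N, Good D → StarLeaf.RedOff N D)
    (good_zero : Good 0)
    (good_of_add : ∀ D D' : RDiv N, Good (D + D') → Good D)
    (move1 : ∃ d : ℕ, ∀ (c : ↥(MW N)) (k : ℕ) (T : RDiv N), d ≤ k → Good T →
      ∃ D : RDiv N, degHom N D = k ∧ clHom N D = c ∧ Good (D + T))
    (move2 : ∃ d : ℕ, ∀ (D T : RDiv N) (k : ℕ), Good (D + T) → degHom N D + d ≤ k →
      ∃ (s : Sec N) (D' : RDiv N), s.lev = k ∧ div0 s = D + D' ∧ Good (D + D' + T)) :
    AddGroup.FG ↥(FixedPoints.addSubgroup ((AlgebraicClosure ℚ) ≃ₐ[ℚ] (AlgebraicClosure ℚ))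
      (JZero N)) :=
  s17_of_leaves (n := 3) (by norm_num) (Fermat.Agent.GR.W.Final.weakMW_three N)
    (leaves_of_binders N hLT hα Good hGood good_zero good_of_add move1 move2)

end Fermat.Agent.GR.H.TopInst.Assemble
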