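/-
GATE-R / S17, node GR-H-TI-E1 (helper74): leaf (TI-E1) of the TOP-INST split (board 4974) —
the fields `H_nonneg`, `H_zero`, `H_add_inf` of helper20's `HeightFrame` (`GR/H/Canon.lean`) for

  `H n D := PL.Hpl N (n : ℤ) ↑D`     on helper10's carriers `RDiv N`, `infD N`, `degHom N`
                                      (`GR/H/TopInstCarrier.lean`),

each with EXACTLY the shape of the field (the function `H` unfolded, so that the structure literal
of the integrator accepts them by `rfl`-unfolding).  The mathematics is helper43's `PL/Level.lean`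
(`Hpl_nonneg`, `Hpl_zero`, `Hpl_add_oo` on the flag bases); this file is the adapter to the
carrier spelling.
-/
import Fermat.Agent.GR.H.PL.Level
import Fermat.Agent.GR.H.TopInstCarrier

set_option autoImplicit false

noncomputable section

open AlgebraicCurve ModularCurve
open Fermat.Agent.GR.H.PL Fermat.Agent.GR.H.TopInstCarrier

namespace Fermat.Agent.GR.H.TopInst.E1

local notation "Qb" => AlgebraicClosure ℚ

variable (N : ℕ) [NeZero N]

/-- the field `H` of the `HeightFrame` of `J₀(N)(ℚ)`: the Plücker height of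
`L_ℚ(n ∞ - D) ⊆ L_ℚ(n ∞)` -/
def Hfr (n : ℕ) (D : RDiv N) : ℝ := Hpl N (n : ℤ) (D : Divisor Qb (FN N))

theorem Hfr_def (n : ℕ) (D : RDiv N) : Hfr N n D = Hpl N (n : ℤ) (D : Divisor Qb (FN N)) := rfl

/-- **field `H_nonneg`** -/
theorem H_nonneg : ∀ (n : ℕ) (D : RDiv N), 0 ≤ Hpl N (n : ℤ) (D : Divisor Qb (FN N)) :=
  fun n D => Hpl_nonneg (n : ℤ) (D : Divisor Qb (FN N))

/-- **field `H_zero`** -/
theorem H_zero : ∀ n : ℕ, Hpl N (n : ℤ) (((0 : RDiv N)) : Divisor Qb (FN N)) = 0 := by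
  intro n
  rw [AddSubmonoid.coe_zero]
  exact Hpl_zero (n : ℤ)

/-- **field `H_add_inf`**, without the (unnecessary) threshold: `H_n(D + ∞) = H_{n-1}(D)` for
`1 ≤ n`. -/
theorem H_add_inf_of_pos (n : ℕ) (D : RDiv N) (hn : 1 ≤ n) :
    Hpl N (n : ℤ) ((D + infD N : RDiv N) : Divisor Qb (FN N)) =
      Hpl N ((n - 1 : ℕ) : ℤ) (D : Divisor Qb (FN N)) := by
  rw [AddSubmonoid.coe_add, coe_infD]
  have h := Hpl_add_oo (N := N) (n - 1) (D := (D : Divisor Qb (FN N))) D.2.1
  rwa [Nat.sub_add_cancel hn] at h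

/-- **field `H_add_inf`**, EXACT shape (any threshold `c₀`). -/
theorem H_add_inf (c₀ : ℕ) : ∀ (n : ℕ) (D : RDiv N), degHom N D + 1 + c₀ ≤ n →
    Hpl N (n : ℤ) ((D + infD N : RDiv N) : Divisor Qb (FN N)) =
      Hpl N ((n - 1 : ℕ) : ℤ) (D : Divisor Qb (FN N)) :=
  fun n D hn => H_add_inf_of_pos N n D (by omega)

/-- the three fields for the bundled `H` -/
theorem Hfr_fields (c₀ : ℕ) :
    (∀ (n : ℕ) (D : RDiv N), 0 ≤ Hfr N n D) ∧ (∀ n : ℕ, Hfr N n 0 = 0) ∧
      ∀ (n : ℕ) (D : RDiv N), degHom N D + 1 + c₀ ≤ n → Hfr N n (D + infD N) = Hfr N (n - 1) D :=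
  ⟨H_nonneg N, H_zero N, H_add_inf N c₀⟩

end Fermat.Agent.GR.H.TopInst.E1
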