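/-
GATE-R (S17) / leaf GR-H-TI-ENUM (helper4): **bookkeeping for the (★)-fields of `HeightFrame`.**

The cube identities of `GR/H/Star` are stated for an injective family `P : Fin e → Place` and
index sets `G ⊆ Fin e`; the `HeightFrame` fields are stated for reduced effective divisors.  Here:

* `sumDivOn P G`       : the reduced divisor `Σ_{p ∈ G} P p`;
* `exists_enum`        : a reduced effective divisor is `sumDiv P` for an injective `P`;
* `exists_enum_split`  : if `Σ_i D i` is reduced (`D i ≥ 0`), then `D i = sumDivOn P (G i)` for pairwise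
                         disjoint `G i` covering `Fin e`;
* `sumDivOn_biUnion` / `sumDivOn_union` : sums of parts;
* `degree_sumDivOn`    : `deg (sumDivOn P G) = #G` when all places have degree one;
* `perm_mapsTo`        : an automorphism fixing `sumDiv P` and `sumDivOn P G` permutes `P` and the
                         permutation preserves `G`;
* `exists_uniform`     : the "finite max" lemma turning bounds for fixed `(N, e, G)` into a bound
                         uniform in `N ≤ M`, `e ≤ M` and all index sets.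
-/
import Mathlib
import Fermat.Agent.GR.H.PL.EvRat

set_option autoImplicit false

noncomputable section

open AlgebraicCurve

namespace Fermat.Agent.GR.H.TopInst.Enum

open Fermat.Agent.GR.H.PL.Ev Fermat.Agent.GR.H.PL.EvRat

variable {K F : Type*} [Field K] [Field F] [Algebra K F]

/-- the reduced divisor `Σ_{p ∈ G} P p` -/
def sumDivOn {ι : Type*} (P : ι → Place K F) (G : Finset ι) : Divisor K F :=
  ∑ p ∈ G, Finsupp.single (P p) (1 : ℤ)

theorem sumDivOn_univ {ι : Type*} [Fintype ι] (P : ι → Place K F) :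
    sumDivOn P Finset.univ = sumDiv P := rfl

@[simp] theorem sumDivOn_empty {ι : Type*} (P : ι → Place K F) : sumDivOn P ∅ = 0 := by
  simp [sumDivOn]

theorem sumDivOn_union {ι : Type*} [DecidableEq ι] (P : ι → Place K F) {G G' : Finset ι}
    (h : Disjoint G G') : sumDivOn P (G ∪ G') = sumDivOn P G + sumDivOn P G' := by
  unfold sumDivOn
  exact Finset.sum_union h

theorem sumDivOn_biUnion {ι κ : Type*} [DecidableEq ι] (P : ι → Place K F) (s : Finset κ)
    (G : κ → Finset ι) (h : ∀ i ∈ s, ∀ j ∈ s, i ≠ j → Disjoint (G i) (G j)) :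
    sumDivOn P (s.biUnion G) = ∑ i ∈ s, sumDivOn P (G i) := by
  unfold sumDivOn
  exact Finset.sum_biUnion h

theorem sumDivOn_nonneg {ι : Type*} (P : ι → Place K F) (G : Finset ι) : 0 ≤ sumDivOn P G := by
  unfold sumDivOn
  refine Finset.sum_nonneg fun p _ => ?_
  rw [Finsupp.le_def]
  intro v
  classical
  rw [Finsupp.single_apply]
  split_ifs <;> simp

theorem sumDivOn_apply {ι : Type*} [DecidableEq ι] {P : ι → Place K F}
    (hinj : Function.Injective P) (G : Finset ι) (p : ι) :
    sumDivOn P G (P p) = if p ∈ G then 1 else 0 := by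
  classical
  unfold sumDivOn
  rw [Finsupp.finsetSum_apply]
  split_ifs with hp
  · rw [Finset.sum_eq_single p]
    · simp
    · intro q _ hqp
      rw [Finsupp.single_apply, if_neg fun h => hqp (hinj h)]
    · intro h; exact absurd hp h
  · refine Finset.sum_eq_zero fun q hq => ?_
    rw [Finsupp.single_apply, if_neg fun h => hp (by rw [← hinj h]; exact hq)]

theorem sumDivOn_apply_of_forall_ne {ι : Type*} {P : ι → Place K F} {G : Finset ι}
    {v : Place K F} (hv : ∀ p ∈ G, P p ≠ v) : sumDivOn P G v = 0 := by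
  classical
  unfold sumDivOn
  rw [Finsupp.finsetSum_apply]
  exact Finset.sum_eq_zero fun q hq => by rw [Finsupp.single_apply, if_neg (hv q hq)]

theorem degree_sumDivOn {ι : Type*} {P : ι → Place K F} (hP : ∀ i, (P i).deg = 1)
    (G : Finset ι) : Divisor.degree (sumDivOn P G) = G.card := by
  unfold sumDivOn
  rw [map_sum]
  simp [Divisor.degree_single, hP]

/-! ### enumeration of a reduced effective divisor -/

/-- **a reduced effective divisor is `Σ_i P i` for an injective family of places.** -/
theorem exists_enum (D : Divisor K F) (h0 : 0 ≤ D) (hred : ∀ v, D v ≤ 1) :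
    ∃ P : Fin D.support.card → Place K F, Function.Injective P ∧ sumDiv P = D ∧
      ∀ v, D v ≠ 0 → ∃ p, P p = v := by
  classical
  let e : Fin D.support.card ≃ ↥D.support := D.support.equivFin.symm
  have hone : ∀ v ∈ D.support, D v = 1 := by
    intro v hv
    have h1 : D v ≠ 0 := Finsupp.mem_support_iff.mp hv
    have h2 : 0 ≤ D v := Finsupp.le_def.mp h0 v
    have h3 := hred v
    omega
  refine ⟨fun i => (e i : Place K F), fun a b hab => e.injective (Subtype.ext hab), ?_,
    fun v hv => ⟨e.symm ⟨v, Finsupp.mem_support_iff.mpr hv⟩, by simp⟩⟩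
  unfold sumDiv
  rw [Equiv.sum_comp e (fun w : ↥D.support => Finsupp.single (w : Place K F) (1 : ℤ)),
    Finset.sum_coe_sort D.support (fun v => Finsupp.single v (1 : ℤ))]
  conv_rhs => rw [← Finsupp.sum_single D]
  unfold Finsupp.sum
  exact Finset.sum_congr rfl fun v hv => by rw [hone v hv]

/-- **splitting**: if the sum of the effective divisors `D i` is reduced, the `D i` are the
partial sums `Σ_{p ∈ G i} P p` of one injective enumeration over pairwise disjoint index sets
covering everything. -/
theorem exists_enum_split {n : ℕ} (D : Fin n → Divisor K F) (h0 : ∀ i, 0 ≤ D i)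
    (hred : ∀ v, (∑ i, D i) v ≤ 1) :
    ∃ (e : ℕ) (P : Fin e → Place K F) (G : Fin n → Finset (Fin e)), Function.Injective P ∧
      (∀ i j, i ≠ j → Disjoint (G i) (G j)) ∧ (Finset.univ.biUnion G = Finset.univ) ∧
      (∀ i, D i = sumDivOn P (G i)) ∧ sumDiv P = ∑ i, D i := by
  classical
  have hsum0 : 0 ≤ ∑ i, D i := Finset.sum_nonneg fun i _ => h0 i
  obtain ⟨P, hinj, hP, hsurj⟩ := exists_enum (∑ i, D i) hsum0 hred
  have hnn : ∀ i v, 0 ≤ D i v := fun i v => Finsupp.le_def.mp (h0 i) v
  have hsumv : ∀ v, (∑ i, D i) v = ∑ i, D i v := fun v => Finsupp.finsetSum_apply _ _ _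
  -- at most one part is nonzero at a given place, and then it is `1`
  have huniq : ∀ v i j, D i v ≠ 0 → D j v ≠ 0 → i = j := by
    intro v i j hi hj
    by_contra hij
    have h1 := hred v
    rw [hsumv] at h1
    have h2 : D i v + D j v ≤ ∑ l, D l v := by
      have : ∑ l ∈ ({i, j} : Finset (Fin n)), D l v ≤ ∑ l, D l v :=
        Finset.sum_le_sum_of_subset_of_nonneg (Finset.subset_univ _) fun l _ _ => hnn l v
      rwa [Finset.sum_pair hij] at this
    have := hnn i v
    have := hnn j v
    omega
  have hle1 : ∀ i v, D i v ≤ 1 := by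
    intro i v
    have h1 := hred v
    rw [hsumv] at h1
    have : D i v ≤ ∑ l, D l v :=
      Finset.single_le_sum (f := fun l => D l v) (fun l _ => hnn l v) (Finset.mem_univ i)
    omega
  refine ⟨_, P, fun i => Finset.univ.filter fun p => D i (P p) ≠ 0, hinj, ?_, ?_, ?_, hP⟩
  · intro i j hij
    rw [Finset.disjoint_left]
    intro p hp hp'
    exact hij (huniq (P p) i j (Finset.mem_filter.mp hp).2 (Finset.mem_filter.mp hp').2)
  · rw [Finset.eq_univ_iff_forall]
    intro p
    have h1 : (∑ i, D i) (P p) = 1 := by rw [← hP]; exact sumDiv_apply_of_injective hinj p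
    rw [hsumv] at h1
    obtain ⟨i, -, hi⟩ : ∃ i ∈ Finset.univ, D i (P p) ≠ 0 := by
      by_contra hcon
      push Not at hcon
      rw [Finset.sum_eq_zero hcon] at h1
      exact zero_ne_one h1
    exact Finset.mem_biUnion.mpr ⟨i, Finset.mem_univ i, Finset.mem_filter.mpr ⟨Finset.mem_univ p, hi⟩⟩
  · intro i
    ext v
    by_cases hv : D i v = 0
    · rw [hv, sumDivOn_apply_of_forall_ne]
      intro p hp hpv
      exact (Finset.mem_filter.mp hp).2 (hpv ▸ hv)
    · have hv1 : D i v = 1 := by
        have := hnn i v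
        have := hle1 i v
        omega
      have hsv : (∑ l, D l) v ≠ 0 := by
        rw [hsumv]
        have : D i v ≤ ∑ l, D l v :=
          Finset.single_le_sum (f := fun l => D l v) (fun l _ => hnn l v) (Finset.mem_univ i)
        omega
      obtain ⟨p, rfl⟩ := hsurj v hsv
      rw [sumDivOn_apply hinj, if_pos (Finset.mem_filter.mpr ⟨Finset.mem_univ p, hv⟩), hv1]

/-! ### Galois action -/

/-- an automorphism fixing `Σ_i P i` permutes the `P i`; if it also fixes `Σ_{p ∈ G} P p`, the
permutation preserves `G`. -/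
theorem perm_mapsTo {ι : Type*} [Fintype ι] [DecidableEq ι] {P : ι → Place K F}
    (hinj : Function.Injective P) (g : SemilinearAut K F) {π : Equiv.Perm ι}
    (hπ : ∀ i, g • P i = P (π i)) (G : Finset ι) (hG : g • sumDivOn P G = sumDivOn P G) :
    ∀ p ∈ G, π p ∈ G := by
  intro p hp
  have h1 : (g • sumDivOn P G) (g • P p) = sumDivOn P G (P p) := by
    rw [SemilinearAut.divisor_smul_apply, inv_smul_smul]
  rw [hG, hπ p, sumDivOn_apply hinj, sumDivOn_apply hinj, if_pos hp] at h1
  by_contra hcon
  rw [if_neg hcon] at h1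
  exact zero_ne_one h1

/-- the permutation of `perm_mapsTo` restricted to `G` -/
theorem perm_image_eq {ι : Type*} [Fintype ι] [DecidableEq ι] {P : ι → Place K F}
    (hinj : Function.Injective P) (g : SemilinearAut K F) {π : Equiv.Perm ι}
    (hπ : ∀ i, g • P i = P (π i)) (G : Finset ι) (hG : g • sumDivOn P G = sumDivOn P G) :
    G.image π = G := by
  refine Finset.eq_of_subset_of_card_le ?_ ?_
  · intro q hq
    obtain ⟨p, hp, rfl⟩ := Finset.mem_image.mp hq
    exact perm_mapsTo hinj g hπ G hG p hp
  · rw [Finset.card_image_of_injective _ π.injective]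

/-! ### uniformisation of constants -/

/-- the "finite max" lemma -/
theorem exists_uniform_of_finite {α : Type*} [Finite α] (Φ : α → ℝ → Prop)
    (hmono : ∀ a C C', C ≤ C' → Φ a C → Φ a C') (h : ∀ a, ∃ C, Φ a C) : ∃ C, ∀ a, Φ a C := by
  classical
  have := Fintype.ofFinite α
  choose c hc using h
  rcases isEmpty_or_nonempty α with hα | hα
  · exact ⟨0, fun a => (hα.false a).elim⟩
  · refine ⟨Finset.univ.sup' Finset.univ_nonempty c, fun a => ?_⟩
    exact hmono a _ _ (Finset.le_sup' c (Finset.mem_univ a)) (hc a)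

/-- bounds for each fixed `(N, e, G)` are uniform over `N ≤ M`, `e ≤ M` and all families `G` of
index sets. -/
theorem exists_uniform (n : ℕ) (Φ : ∀ (N e : ℕ), (Fin n → Finset (Fin e)) → ℝ → Prop)
    (hmono : ∀ N e G C C', C ≤ C' → Φ N e G C → Φ N e G C')
    (h : ∀ N e G, ∃ C, Φ N e G C) (M : ℕ) :
    ∃ C, ∀ (N e : ℕ) (G : Fin n → Finset (Fin e)), N ≤ M → e ≤ M → Φ N e G C := by
  let α := Σ (_ : Fin (M + 1)) (e : Fin (M + 1)), (Fin n → Finset (Fin (e : ℕ)))
  obtain ⟨C, hC⟩ := exists_uniform_of_finite (α := α)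
    (fun a => Φ (a.1 : ℕ) (a.2.1 : ℕ) a.2.2)
    (fun a C C' hCC' => hmono _ _ _ C C' hCC') (fun a => h _ _ _)
  refine ⟨C, fun N e G hN he => ?_⟩
  exact hC ⟨⟨N, Nat.lt_succ_of_le hN⟩, ⟨e, Nat.lt_succ_of_le he⟩, G⟩

end Fermat.Agent.GR.H.TopInst.Enum
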