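/-
GATE-R / S17, node GR-H-TI-MOVE (helper70): leaf (TI-MOVE) of the TOP-INST split (board 4974,
pin 5026, integrator spec 5063).

The fields `Good`, `good_zero`, `good_of_add`, `move1`, `move2` of helper10's `TopInst.Leaves`
(= helper20's `HeightFrame`, `GR/H/Canon.lean`) for `J₀(N)(ℚ)`, on helper10's carriers
(`GR/H/TopInstCarrier.lean`: `RDiv N`, `degHom`, `clHom`, `Sec N`, `div0`), from helper4's moving
lemma in the rational frame (`GR/H/MoveInst.lean`: `exists_rep`, `exists_section`).

* `GoodOn B D`  : `D` is reduced (all multiplicities `≤ 1`) and disjoint from the finite set `B`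
  of excluded places (helper4 5005);
* `Bad N := {∞}`, `Good N := GoodOn (Bad N)` : THE `Good` of the frame (helper20 5026);
* `goodOn_iff`, `goodOn_add_iff` : unfolding lemmas for the consumers (TI-STAR / TI-ENUM):
  `Good (D + E)` iff both are good and have disjoint supports;
* `goodOn_zero`, `goodOn_of_add`, `move1_on`, `move2_on` : the four fields for ANY finite `B`;
* `good_zero`, `good_of_add`, `move1`, `move2` : the four fields of `Leaves N (Good N)` VERBATIM.
-/
import Fermat.Agent.GR.H.TopInst.Data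
import Fermat.Agent.GR.H.MoveInst

set_option autoImplicit false
set_option linter.unusedSectionVars false

noncomputable section

open AlgebraicCurve ModularCurve

namespace Fermat.Agent.GR.H.TopInst.Move

open Fermat.Agent.GR.H.TopInstCarrier Fermat.Agent.GR.W.RatRep Fermat.Agent.GR.Top.S17Top

local notation "Qb" => AlgebraicClosure ℚ
local notation "GQ" => (AlgebraicClosure ℚ ≃ₐ[ℚ] AlgebraicClosure ℚ)

variable {N : ℕ} [NeZero N]

/-- `D` is reduced and disjoint from the finite set `B` of excluded places. -/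
def GoodOn (B : Finset (Place Qb (FN N))) (D : RDiv N) : Prop :=
  (∀ v : Place Qb (FN N), (D : Divisor Qb (FN N)) v ≤ 1) ∧
    ∀ v ∈ B, (D : Divisor Qb (FN N)) v = 0

theorem RDiv.apply_nonneg (D : RDiv N) (v : Place Qb (FN N)) :
    0 ≤ (D : Divisor Qb (FN N)) v := by
  have := Finsupp.le_def.mp D.nonneg v
  simpa using this

theorem coe_add_apply (D E : RDiv N) (v : Place Qb (FN N)) :
    ((D + E : RDiv N) : Divisor Qb (FN N)) v
      = (D : Divisor Qb (FN N)) v + (E : Divisor Qb (FN N)) v := by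
  rw [AddSubmonoid.coe_add, Finsupp.add_apply]

theorem goodOn_iff (B : Finset (Place Qb (FN N))) (D : RDiv N) :
    GoodOn B D ↔ (∀ v : Place Qb (FN N), (D : Divisor Qb (FN N)) v = 0 ∨
      (D : Divisor Qb (FN N)) v = 1) ∧ ∀ v ∈ B, (D : Divisor Qb (FN N)) v = 0 := by
  constructor
  · rintro ⟨h1, h2⟩
    refine ⟨fun v => ?_, h2⟩
    have := RDiv.apply_nonneg D v
    have := h1 v
    omega
  · rintro ⟨h1, h2⟩
    refine ⟨fun v => ?_, h2⟩
    rcases h1 v with h | h <;> omega

/-- `D + E` is good iff `D`, `E` are good with disjoint supports. -/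
theorem goodOn_add_iff (B : Finset (Place Qb (FN N))) (D E : RDiv N) :
    GoodOn B (D + E) ↔ GoodOn B D ∧ GoodOn B E ∧
      ∀ v : Place Qb (FN N), (D : Divisor Qb (FN N)) v = 0 ∨ (E : Divisor Qb (FN N)) v = 0 := by
  have hD := RDiv.apply_nonneg D
  have hE := RDiv.apply_nonneg E
  constructor
  · rintro ⟨h1, h2⟩
    refine ⟨⟨fun v => ?_, fun v hv => ?_⟩, ⟨fun v => ?_, fun v hv => ?_⟩, fun v => ?_⟩
    · have := h1 v; rw [coe_add_apply] at this; have := hD v; have := hE v; omega
    · have := h2 v hv; rw [coe_add_apply] at this; have := hD v; have := hE v; omega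
    · have := h1 v; rw [coe_add_apply] at this; have := hD v; have := hE v; omega
    · have := h2 v hv; rw [coe_add_apply] at this; have := hD v; have := hE v; omega
    · have := h1 v; rw [coe_add_apply] at this; have := hD v; have := hE v; omega
  · rintro ⟨⟨h1, h2⟩, ⟨h3, h4⟩, h5⟩
    refine ⟨fun v => ?_, fun v hv => ?_⟩
    · rw [coe_add_apply]
      have := h1 v; have := h3 v
      rcases h5 v with h | h <;> omega
    · rw [coe_add_apply, h2 v hv, h4 v hv]; rfl

theorem GoodOn.mono {B B' : Finset (Place Qb (FN N))} (h : B' ⊆ B) {D : RDiv N}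
    (hD : GoodOn B D) : GoodOn B' D :=
  ⟨hD.1, fun v hv => hD.2 v (h hv)⟩

/-- **`good_zero`** for any excluded set -/
theorem goodOn_zero (B : Finset (Place Qb (FN N))) : GoodOn B (0 : RDiv N) :=
  ⟨fun v => by simp, fun v _ => by simp⟩

/-- **`good_of_add`** for any excluded set -/
theorem goodOn_of_add (B : Finset (Place Qb (FN N))) :
    ∀ D D' : RDiv N, GoodOn B (D + D') → GoodOn B D :=
  fun D D' h => ((goodOn_add_iff B D D').mp h).1

/-- **`move1`** for any excluded set: every rational class has a good representative of any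
degree `d ≥ moveBound N`, disjoint from a given good `T`. -/
theorem move1_on (B : Finset (Place Qb (FN N))) :
    ∀ (c : ↥(MW N)) (k : ℕ) (T : RDiv N), Fermat.Agent.GR.H.MoveInst.moveBound N ≤ k →
      GoodOn B T → ∃ D : RDiv N, degHom N D = k ∧ clHom N D = c ∧ GoodOn B (D + T) := by
  classical
  intro c d T hd hT
  obtain ⟨D, hrat, h0, hred, hS, hdeg, hmem, hc⟩ :=
    Fermat.Agent.GR.H.MoveInst.exists_rep (N := N) c hd
      ((T : Divisor Qb (FN N)).support ∪ B)
  let D' : RDiv N := ⟨D, h0, hrat⟩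
  have hdeg' : degHom N D' = d := by
    have h := coe_degHom D'
    have : ((degHom N D' : ℕ) : ℤ) = (d : ℤ) := by rw [h]; exact hdeg
    exact_mod_cast this
  refine ⟨D', hdeg', ?_, ?_⟩
  · apply Subtype.ext
    rw [coe_clHom, hc]
    congr 1
    apply Subtype.ext
    rw [coe_shift, hdeg']
  · rw [goodOn_add_iff]
    refine ⟨(goodOn_iff B D').mpr ⟨hred, fun v hv => ?_⟩, hT, fun v => ?_⟩
    · exact hS v (Finset.mem_union_right _ hv)
    · by_cases hv : v ∈ (T : Divisor Qb (FN N)).support
      · exact Or.inl (hS v (Finset.mem_union_left _ hv))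
      · exact Or.inr (Finsupp.notMem_support_iff.mp hv)

/-- **`move2`** for any excluded set: a rational section of level `k ≥ deg D + moveBound N`
through `D` whose residual divisor `D'` makes `D + D' + T` good. -/
theorem move2_on (B : Finset (Place Qb (FN N))) :
    ∀ (D T : RDiv N) (k : ℕ), GoodOn B (D + T) →
      degHom N D + Fermat.Agent.GR.H.MoveInst.moveBound N ≤ k →
      ∃ (s : Sec N) (D' : RDiv N), s.lev = k ∧ div0 s = D + D' ∧ GoodOn B (D + D' + T) := by
  classical
  intro D T k hDT hk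
  have hk' : ((Fermat.Agent.GR.H.MoveInst.moveBound N : ℕ) : ℤ)
      + Divisor.degree (D : Divisor Qb (FN N)) ≤ (k : ℤ) := by
    rw [← coe_degHom D]
    have : Fermat.Agent.GR.H.MoveInst.moveBound N + degHom N D ≤ k := by omega
    exact_mod_cast this
  obtain ⟨s, hsV, hs0, D', hrat, h0, hdiv, hred, hS, -⟩ :=
    Fermat.Agent.GR.H.MoveInst.exists_section (N := N) (D := (D : Divisor Qb (FN N)))
      D.isRat D.nonneg hk'
      ((D : Divisor Qb (FN N)).support ∪ (T : Divisor Qb (FN N)).support ∪ B)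
  let E : RDiv N := ⟨D', h0, hrat⟩
  refine ⟨Data.Sec.ofV k s hsV hs0, E, rfl, ?_, ?_⟩
  · apply Subtype.ext
    rw [Data.coe_div0_eq, AddSubmonoid.coe_add]
    exact hdiv
  · obtain ⟨hD, hT, hdisj⟩ := (goodOn_add_iff B D T).mp hDT
    have hE : GoodOn B E := (goodOn_iff B E).mpr ⟨hred, fun v hv => hS v
      (Finset.mem_union_right _ hv)⟩
    have hDE : GoodOn B (D + E) := by
      rw [goodOn_add_iff]
      refine ⟨hD, hE, fun v => ?_⟩
      by_cases hv : v ∈ (D : Divisor Qb (FN N)).support
      · exact Or.inr (hS v (Finset.mem_union_left _ (Finset.mem_union_left _ hv)))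
      · exact Or.inl (Finsupp.notMem_support_iff.mp hv)
    rw [goodOn_add_iff]
    refine ⟨hDE, hT, fun v => ?_⟩
    rw [coe_add_apply]
    by_cases hv : v ∈ (T : Divisor Qb (FN N)).support
    · left
      have h1 : (E : Divisor Qb (FN N)) v = 0 :=
        hS v (Finset.mem_union_left _ (Finset.mem_union_right _ hv))
      have h2 : (D : Divisor Qb (FN N)) v = 0 := by
        rcases hdisj v with h | h
        · exact h
        · exact absurd h (Finsupp.mem_support_iff.mp hv)
      rw [h1, h2]; rfl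
    · exact Or.inr (Finsupp.notMem_support_iff.mp hv)

/-! ### THE `Good` of the frame -/

variable (N)

/-- the excluded places of the frame: the cusp `∞` -/
def Bad : Finset (Place Qb (FN N)) := {cuspInf N}

/-- **`Good`**: reduced and off the cusp `∞`. -/
def Good (D : RDiv N) : Prop := GoodOn (Bad N) D

variable {N}

theorem good_def (D : RDiv N) :
    Good N D ↔ (∀ v : Place Qb (FN N), (D : Divisor Qb (FN N)) v ≤ 1) ∧
      (D : Divisor Qb (FN N)) (cuspInf N) = 0 := by
  unfold Good GoodOn Bad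
  simp

theorem good_iff (D : RDiv N) :
    Good N D ↔ (∀ v : Place Qb (FN N), (D : Divisor Qb (FN N)) v = 0 ∨
      (D : Divisor Qb (FN N)) v = 1) ∧ (D : Divisor Qb (FN N)) (cuspInf N) = 0 := by
  unfold Good
  rw [goodOn_iff]
  unfold Bad
  simp

/-- a good divisor is reduced -/
theorem Good.reduced {D : RDiv N} (h : Good N D) (v : Place Qb (FN N)) :
    (D : Divisor Qb (FN N)) v ≤ 1 := h.1 v

/-- a good divisor does not contain the cusp `∞` -/
theorem Good.off_inf {D : RDiv N} (h : Good N D) : (D : Divisor Qb (FN N)) (cuspInf N) = 0 :=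
  h.2 _ (Finset.mem_singleton_self _)

/-- reduced and off `∞` is good -/
theorem good_of_reduced_of_off_inf {D : RDiv N}
    (h1 : ∀ v : Place Qb (FN N), (D : Divisor Qb (FN N)) v ≤ 1)
    (h2 : (D : Divisor Qb (FN N)) (cuspInf N) = 0) : Good N D :=
  (good_def D).mpr ⟨h1, h2⟩

theorem good_add_iff (D E : RDiv N) :
    Good N (D + E) ↔ Good N D ∧ Good N E ∧
      ∀ v : Place Qb (FN N), (D : Divisor Qb (FN N)) v = 0 ∨ (E : Divisor Qb (FN N)) v = 0 :=
  goodOn_add_iff (Bad N) D E

variable (N)

/-- **`Leaves.good_zero`** -/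
theorem good_zero : Good N 0 := goodOn_zero (Bad N)

/-- **`Leaves.good_of_add`** -/
theorem good_of_add : ∀ D D' : RDiv N, Good N (D + D') → Good N D := goodOn_of_add (Bad N)

/-- **`Leaves.move1`** -/
theorem move1 : ∃ d : ℕ, ∀ (c : ↥(MW N)) (k : ℕ) (T : RDiv N), d ≤ k → Good N T →
    ∃ D : RDiv N, degHom N D = k ∧ clHom N D = c ∧ Good N (D + T) :=
  ⟨Fermat.Agent.GR.H.MoveInst.moveBound N, move1_on (Bad N)⟩

/-- **`Leaves.move2`** -/
theorem move2 : ∃ d : ℕ, ∀ (D T : RDiv N) (k : ℕ), Good N (D + T) → degHom N D + d ≤ k →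
    ∃ (s : Sec N) (D' : RDiv N), s.lev = k ∧ div0 s = D + D' ∧ Good N (D + D' + T) :=
  ⟨Fermat.Agent.GR.H.MoveInst.moveBound N, move2_on (Bad N)⟩

end Fermat.Agent.GR.H.TopInst.Move
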