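/-
GATE-R / S17, leaf (TI-ML) of the TOP-INST split (helper20 board 4974), helper44:
the fields `ML` and `hs_mul` of `Canon.HeightFrame` in helper43's PL vocabulary.

* `dI_div0`, `mem_I_div0`, `Hpl_div0` : for `w ∈ V_k ∖ 0` the space `I_k((w)_0)` is the line
  `ℚ · w`, and its Plücker height is the height of `w`;
* `ML_PL`     : (ML') with the Riemann dimension `n - j - deg E - (g - 1)` spelled out, ONE
  constant for all levels `n ≤ M`;
* `hs_mul_PL` : `|h(u) - h(s) - h(t)| ≤ C` whenever `(u)_0 = (s)_0 + (t)_0`, ONE constant for all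
  levels `≤ M` (the multiplication lemma for the line `ℚ · t`).

Everything is derived from `PL/MulPlug.exists_ML_const_le` (certificate-free multiplication
lemma) and `PL.exists_threshold` (through the hypothesis `hc₀`).
-/
import Fermat.Agent.GR.H.PL.MulPlug

set_option autoImplicit false

noncomputable section

open AlgebraicCurve ModularCurve
open Fermat.Agent.GR.H.CauchyBinet Fermat.Agent.GR.H.MulLemma Fermat.Agent.GR.H.PL
open Fermat.Agent.GR.H.PLMulPlug
open scoped Matrix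

namespace Fermat.Agent.GR.H.TopInst.ML

local notation "Qb" => AlgebraicClosure ℚ

variable (N : ℕ) [NeZero N]

theorem twist_zero_zero : twist (N := N) 0 0 = 0 := by
  unfold twist
  simp

/-- `dim_ℚ V_0 = 1`. -/
theorem dI_zero_zero : dI N 0 0 = 1 := by
  unfold dI
  rw [finrank_I isRatDiv_zero 0, twist_zero_zero, Fermat.Agent.GR.W.RatRep.finrank_L_zero N]

variable {N}

theorem one_mem_V_zero : (1 : FNb N) ∈ I (N := N) 0 0 := by
  refine mem_I.2 ⟨IsRatFun.one, ?_⟩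
  rw [twist_zero_zero, mem_riemannRochSpace_iff]
  intro v
  right
  simp [Place.ord_one]

/-- `w ∈ I_k((w)_0)`. -/
theorem mem_I_div0 {k : ℤ} {w : FNb N} (hw : w ∈ V (N := N) k) (hw0 : w ≠ 0) :
    w ∈ I k (div0 k w) := by
  have := mul_mem_I (j := k) (k := 0) (mem_I.1 hw).1 hw0 (one_mem_V_zero (N := N))
  rwa [mul_one, add_zero, zero_add] at this

/-- `I_k((w)_0)` is a line. -/
theorem dI_div0 {k : ℤ} {w : FNb N} (hw : w ∈ V (N := N) k) (hw0 : w ≠ 0) :
    dI N k (div0 k w) = 1 := by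
  have h := dI_add_div0 (N := N) (j := k) (k := 0) (0 : Divisor Qb (FNb N)) (mem_I.1 hw).1 hw0
  rw [add_zero, zero_add] at h
  rw [h, dI_zero_zero]

/-- The Plücker height of the line `I_k((w)_0) = ℚ · w` is the height of `w`. -/
theorem Hpl_div0 {k : ℤ} {w : FNb N} (hw : w ∈ V (N := N) k) (hw0 : w ≠ 0) :
    Hpl N k (div0 k w) = hV N k w := by
  have hD : 0 ≤ div0 k w := div0_nonneg hw hw0
  have hli : LinearIndependent ℚ (fun _ : Fin 1 => w) := by
    rw [linearIndependent_unique_iff]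
    exact hw0
  rw [← logHeight_minorsAll_eq_Hpl' (m := k) hD (r := 1) (dI_div0 hw hw0).symm (fun _ => w)
    (fun _ => mem_I_div0 hw hw0) hli]
  unfold hV
  have h : minorsAll (famMat N k (fun _ : Fin 1 => w)) =
      (coordFun N k w) ∘ (Equiv.funUnique (Fin 1) (Fin (dV N k))) := by
    funext J
    rw [minorsAll_apply, Matrix.det_fin_one]
    rfl
  rw [h]
  exact Height.logHeight_comp_equiv _ _

variable (N)

/-- **Field `ML` of `HeightFrame` in PL vocabulary.**  `c₀` is any natural threshold for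
`PL.exists_threshold`; `γ = genus - 1`. -/
theorem ML_PL {c₀ : ℕ}
    (hc₀ : ∀ (m : ℤ) (D : Divisor Qb (FNb N)), IsRatDiv D → (c₀ : ℤ) + Divisor.degree D ≤ m →
      (Module.finrank ℚ (I m D) : ℤ) = m - Divisor.degree D + 1 - genus N)
    (M : ℕ) : ∃ C : ℝ, ∀ (n j e : ℕ) (E : Divisor Qb (FNb N)) (u : FNb N), n ≤ M → 0 ≤ E →
      IsRatDiv E → Divisor.degree E = (e : ℤ) → u ∈ V (N := N) (j : ℤ) → u ≠ 0 →
      e + j + c₀ ≤ n →
      |Hpl N (n : ℤ) (E + div0 (j : ℤ) u) -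
        ((n : ℝ) - j - e - ((genus N : ℝ) - 1)) * hV N (j : ℤ) u -
        Hpl N ((n - j : ℕ) : ℤ) E| ≤ C := by
  obtain ⟨C, hC⟩ := exists_ML_const_le N M
  refine ⟨C, fun n j e E u hn hE hEr hdeg hu hu0 hle => ?_⟩
  have hjk : j + (n - j) ≤ M := by omega
  have key := hC j (n - j) hjk E u hE hu hu0
  have hcast : ((j : ℤ) + ((n - j : ℕ) : ℤ)) = (n : ℤ) := by omega
  rw [hcast] at key
  have hdim : (dI N ((n - j : ℕ) : ℤ) E : ℝ) = (n : ℝ) - j - e - ((genus N : ℝ) - 1) := by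
    have h := hc₀ ((n - j : ℕ) : ℤ) E hEr (by rw [hdeg]; omega)
    have h' : ((dI N ((n - j : ℕ) : ℤ) E : ℤ) : ℝ) =
        ((((n - j : ℕ) : ℤ) - Divisor.degree E + 1 - genus N : ℤ) : ℝ) := by
      unfold dI
      exact_mod_cast h
    rw [hdeg] at h'
    have hnj : ((n - j : ℕ) : ℝ) = (n : ℝ) - j := by
      rw [Nat.cast_sub (by omega)]
    push_cast at h'
    rw [h', hnj]
    ring
  rw [hdim] at key
  have : Hpl N (n : ℤ) (E + div0 (j : ℤ) u) -
        ((n : ℝ) - j - e - ((genus N : ℝ) - 1)) * hV N (j : ℤ) u -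
        Hpl N ((n - j : ℕ) : ℤ) E =
      Hpl N (n : ℤ) (E + div0 (j : ℤ) u) -
        (((n : ℝ) - j - e - ((genus N : ℝ) - 1)) * hV N (j : ℤ) u +
        Hpl N ((n - j : ℕ) : ℤ) E) := by ring
  rw [this]
  exact key

/-- **Field `hs_mul` of `HeightFrame` in PL vocabulary.** -/
theorem hs_mul_PL (M : ℕ) : ∃ C : ℝ, ∀ (a b m : ℕ) (s t u : FNb N), m ≤ M →
    s ∈ V (N := N) (a : ℤ) → s ≠ 0 → t ∈ V (N := N) (b : ℤ) → t ≠ 0 →
    u ∈ V (N := N) (m : ℤ) → u ≠ 0 →
    div0 (m : ℤ) u = div0 (a : ℤ) s + div0 (b : ℤ) t →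
    |hV N (m : ℤ) u - hV N (a : ℤ) s - hV N (b : ℤ) t| ≤ C := by
  obtain ⟨C, hC⟩ := exists_ML_const_le N M
  refine ⟨C, fun a b m s t u hm hs hs0 ht ht0 hu hu0 hdiv => ?_⟩
  have hmab : (m : ℤ) = (a : ℤ) + (b : ℤ) := by
    have h := congrArg Divisor.degree hdiv
    rw [map_add, degree_div0, degree_div0, degree_div0] at h
    exact h
  have hab : a + b ≤ M := by omega
  have key := hC a b hab (div0 (b : ℤ) t) s (div0_nonneg ht ht0) hs hs0
  rw [dI_div0 ht ht0, Hpl_div0 ht ht0, add_comm (div0 (b : ℤ) t), ← hdiv, ← hmab,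
    Hpl_div0 hu hu0] at key
  have : hV N (m : ℤ) u - hV N (a : ℤ) s - hV N (b : ℤ) t =
      hV N (m : ℤ) u - (((1 : ℕ) : ℝ) * hV N (a : ℤ) s + hV N (b : ℤ) t) := by
    push_cast
    ring
  rw [this]
  exact key

end Fermat.Agent.GR.H.TopInst.ML
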