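/-
GATE-R / S17, leaf (TI-ML) part 2 (helper44): the fields `ML` and `hs_mul` of
`Canon.HeightFrame` on helper10's carriers `TopInstCarrier.RDiv N` / `Sec N`, with
`H n D := PL.Hpl N (n : ℤ) ↑D`, `hs s := PL.hV N (s.lev : ℤ) s.f`, `deg := degHom N`,
`γ := genus N - 1`, and `c₀` any natural threshold of `PL.exists_threshold` (hypothesis `hc₀`).
-/
import Fermat.Agent.GR.H.TopInst.ML
import Fermat.Agent.GR.H.TopInstCarrier

set_option autoImplicit false

noncomputable section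

open AlgebraicCurve ModularCurve
open Fermat.Agent.GR.H.PL Fermat.Agent.GR.H.TopInstCarrier

namespace Fermat.Agent.GR.H.TopInst.MLFrame

local notation "Qb" => AlgebraicClosure ℚ

variable (N : ℕ) [NeZero N]

variable {N}

/-- a section of the carrier is an element of `V_lev` -/
theorem sec_mem_V (s : Sec N) : s.f ∈ V (N := N) (s.lev : ℤ) := by
  refine mem_I.2 ⟨fun σ => s.rat σ, ?_⟩
  unfold twist
  rw [sub_zero]
  exact s.mem

theorem isRatDiv_coe (D : RDiv N) : PL.IsRatDiv (D : Divisor Qb (FNb N)) := fun σ => D.isRat σ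

theorem coe_add_div0 (D : RDiv N) (s : Sec N) :
    ((D + TopInstCarrier.div0 s : RDiv N) : Divisor Qb (FNb N)) =
      (D : Divisor Qb (FNb N)) + PL.div0 (s.lev : ℤ) s.f := rfl

theorem coe_div0_eq (s : Sec N) :
    ((TopInstCarrier.div0 s : RDiv N) : Divisor Qb (FNb N)) = PL.div0 (s.lev : ℤ) s.f := rfl

variable (N)

/-- **Field `ML` of `HeightFrame`** on the carriers. -/
theorem ML_frame {c₀ : ℕ}
    (hc₀ : ∀ (m : ℤ) (D : Divisor Qb (FNb N)), PL.IsRatDiv D → (c₀ : ℤ) + Divisor.degree D ≤ m →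
      (Module.finrank ℚ (I m D) : ℤ) = m - Divisor.degree D + 1 - genus N) :
    ∀ M : ℕ, ∃ C : ℝ, ∀ (n : ℕ) (D : RDiv N) (s : Sec N), n ≤ M →
      degHom N D + s.lev + c₀ ≤ n →
      |Hpl N (n : ℤ) ((D + TopInstCarrier.div0 s : RDiv N) : Divisor Qb (FNb N)) -
        ((n : ℝ) - s.lev - degHom N D - ((genus N : ℝ) - 1)) * hV N (s.lev : ℤ) s.f -
        Hpl N ((n - s.lev : ℕ) : ℤ) (D : Divisor Qb (FNb N))| ≤ C := by
  intro M
  obtain ⟨C, hC⟩ := TopInst.ML.ML_PL N hc₀ M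
  refine ⟨C, fun n D s hn hle => ?_⟩
  rw [coe_add_div0]
  exact hC n s.lev (degHom N D) (D : Divisor Qb (FNb N)) s.f hn D.nonneg (isRatDiv_coe D)
    (coe_degHom D).symm (sec_mem_V s) s.ne hle

/-- **Field `hs_mul` of `HeightFrame`** on the carriers. -/
theorem hs_mul_frame : ∀ M : ℕ, ∃ C : ℝ, ∀ s t u : Sec N, u.lev ≤ M →
    TopInstCarrier.div0 u = TopInstCarrier.div0 s + TopInstCarrier.div0 t →
    |hV N (u.lev : ℤ) u.f - hV N (s.lev : ℤ) s.f - hV N (t.lev : ℤ) t.f| ≤ C := by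
  intro M
  obtain ⟨C, hC⟩ := TopInst.ML.hs_mul_PL N M
  refine ⟨C, fun s t u hu hdiv => ?_⟩
  have h := congrArg (fun D : RDiv N => (D : Divisor Qb (FNb N))) hdiv
  exact hC s.lev t.lev u.lev s.f t.f u.f hu (sec_mem_V s) s.ne (sec_mem_V t) t.ne (sec_mem_V u)
    u.ne h

end Fermat.Agent.GR.H.TopInst.MLFrame
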