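/-
GATE-R / S17, leaf (TI-NC) of the TOP-INST split (helper41): **Northcott for the Plücker heights
`Hpl N m D`** on rational effective divisors of fixed degree, above the Riemann threshold.

* `I_eq_of_span_rows_eq` : two coordinate matrices (`PL.famMat`) of spanning families of `I_m(D)`,
  `I_m(D')` with the same row space ⟹ `I_m(D) = I_m(D')`;
* `eq_of_I_eq`           : `I_m(D) = I_m(D')` ⟹ `D = D'` above the base-locus threshold (Speiser
  `PL.span_I` + helper1's `BaseLocus.modularBar_exists_threshold`);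
* `exists_northcott`     : `∃ c₁, ∀ m e B, e + c₁ ≤ m →
    {D | 0 ≤ D ∧ IsRatDiv D ∧ deg D = e ∧ Hpl N m D ≤ B}.Finite`
  (= the `northcott` field of `Canon.HeightFrame` in PL vocabulary, for every `c₀ ≥ c₁`), via
  helper95's `MinorsRowSpace.northcott_logHeight_minorsAll`.
-/
import Fermat.Agent.GR.H.PL.Coord
import Fermat.Agent.GR.H.PL.BaseLocus
import Fermat.Agent.GR.H.MinorsRowSpace

set_option autoImplicit false

noncomputable section

open AlgebraicCurve ModularCurve
open Fermat.Agent.GR.H.CauchyBinet Fermat.Agent.GR.H.PL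
open scoped Matrix

namespace Fermat.Agent.GR.H.TopInst.NC

local notation "Qb" => AlgebraicClosure ℚ

variable {N : ℕ} [NeZero N]

/-- the linear map "function with given `bV`-coordinates" -/
def ofCoord (m : ℤ) : (Fin (dV N m) → ℚ) →ₗ[ℚ] FNb N :=
  (V (N := N) m).subtype.comp (bV N m).equivFun.symm.toLinearMap

theorem ofCoord_coordFun {m : ℤ} {f : FNb N} (hf : f ∈ V (N := N) m) :
    ofCoord m (coordFun N m f) = f := by
  rw [coordFun_of_mem hf]
  simp [ofCoord]

/-- the row space of the coordinate matrix of a spanning family of `I_m(D)` is carried back to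
`I_m(D)` by `ofCoord`. -/
theorem map_ofCoord_span_rows {m : ℤ} {D : Divisor Qb (FNb N)} (hD : 0 ≤ D) {r : ℕ}
    (w : Fin r → FNb N) (hw : Submodule.span ℚ (Set.range w) = I m D) :
    Submodule.map (ofCoord m) (Submodule.span ℚ (Set.range fun a => famMat N m w a)) = I m D := by
  have hmem : ∀ a, w a ∈ V (N := N) m := fun a =>
    I_le_V hD (hw ▸ Submodule.subset_span (Set.mem_range_self a))
  have hcomp : (ofCoord m ∘ fun a => famMat N m w a) = w := funext fun a => by
    show ofCoord m (coordFun N m (w a)) = w a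
    exact ofCoord_coordFun (hmem a)
  rw [Submodule.map_span, ← Set.range_comp, hcomp, hw]

/-- same row space ⟹ same space of functions. -/
theorem I_eq_of_span_rows_eq {m : ℤ} {D D' : Divisor Qb (FNb N)} (hD : 0 ≤ D) (hD' : 0 ≤ D')
    {r : ℕ} (w w' : Fin r → FNb N) (hw : Submodule.span ℚ (Set.range w) = I m D)
    (hw' : Submodule.span ℚ (Set.range w') = I m D')
    (h : Submodule.span ℚ (Set.range fun a => famMat N m w a) =
      Submodule.span ℚ (Set.range fun a => famMat N m w' a)) : I m D = I m D' := by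
  rw [← map_ofCoord_span_rows hD w hw, ← map_ofCoord_span_rows hD' w' hw', h]

variable (N) in
/-- **`I_m(D)` determines `D`** above the base-locus threshold. -/
theorem exists_threshold_eq_of_I_eq : ∃ c : ℤ, ∀ (m : ℤ) (D D' : Divisor Qb (FNb N)),
    IsRatDiv D → IsRatDiv D' → c + Divisor.degree D ≤ m → c + Divisor.degree D' ≤ m →
      I m D = I m D' → D = D' := by
  obtain ⟨c, hc⟩ := BaseLocus.modularBar_exists_threshold N
  refine ⟨c, fun m D D' hD hD' hm hm' h => ?_⟩
  have hdeg : Divisor.degree (Finsupp.single (oo N) m : Divisor Qb (FNb N)) = m := by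
    have := degree_twist (N := N) m 0
    unfold twist at this
    simpa using this
  refine hc (Finsupp.single (oo N) m) D D' (by rw [hdeg]; exact hm) (by rw [hdeg]; exact hm') ?_
  have h1 := span_I hD m
  have h2 := span_I hD' m
  unfold twist at h1 h2
  rw [← h1, ← h2, h]

variable (N) in
/-- **(TI-NC) Northcott for the Plücker heights**: above a threshold `c₁` (Riemann + base locus),
there are only finitely many rational effective divisors of degree `e` with `Hpl N m D ≤ B`. -/
theorem exists_northcott : ∃ c₁ : ℕ, ∀ (m e : ℕ) (B : ℝ), e + c₁ ≤ m →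
    {D : Divisor Qb (FNb N) | 0 ≤ D ∧ IsRatDiv D ∧ Divisor.degree D = (e : ℤ) ∧
      Hpl N (m : ℤ) D ≤ B}.Finite := by
  classical
  obtain ⟨c, hc⟩ := exists_threshold N
  obtain ⟨c', hc'⟩ := exists_threshold_eq_of_I_eq N
  refine ⟨(max c c').toNat, fun m e B hme => ?_⟩
  have hmax : max c c' ≤ ((max c c').toNat : ℤ) := Int.self_le_toNat _
  have hme' : (e : ℤ) + ((max c c').toNat : ℤ) ≤ (m : ℤ) := by exact_mod_cast hme
  have hcm : c + (e : ℤ) ≤ (m : ℤ) := by
    have := le_max_left c c'
    linarith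
  have hcm' : c' + (e : ℤ) ≤ (m : ℤ) := by
    have := le_max_right c c'
    linarith
  -- the type of divisors in play and the common dimension
  let α : Type := {D : Divisor Qb (FNb N) // 0 ≤ D ∧ IsRatDiv D ∧ Divisor.degree D = (e : ℤ)}
  let r : ℕ := ((m : ℤ) - (e : ℤ) + 1 - genus N).toNat
  have hdim : ∀ a : α, dI N (m : ℤ) a.1 = r := by
    intro a
    have h := hc (m : ℤ) a.1 a.2.2.1 (by rw [a.2.2.2]; exact hcm)
    rw [a.2.2.2] at h
    show Module.finrank ℚ (I (m : ℤ) a.1) = r
    have : ((Module.finrank ℚ (I (m : ℤ) a.1) : ℕ) : ℤ).toNat = r := by rw [h]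
    simpa using this
  let w : α → Fin r → FNb N := fun a i =>
    ((bI N (m : ℤ) a.1 (Fin.cast (hdim a).symm i) : I (m : ℤ) a.1) : FNb N)
  have hwmem : ∀ a i, w a i ∈ I (m : ℤ) a.1 := fun a i =>
    (bI N (m : ℤ) a.1 (Fin.cast (hdim a).symm i)).2
  have hwli : ∀ a, LinearIndependent ℚ (w a) := by
    intro a
    have h1 : LinearIndependent ℚ (fun b => ((bI N (m : ℤ) a.1 b : I (m : ℤ) a.1) : FNb N)) :=
      (bI N (m : ℤ) a.1).linearIndependent.map' (I (m : ℤ) a.1).subtype (Submodule.ker_subtype _)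
    exact h1.comp _ (Fin.cast_injective _)
  have hwspan : ∀ a, Submodule.span ℚ (Set.range (w a)) = I (m : ℤ) a.1 := by
    intro a
    have hrange : Set.range (w a) =
        (I (m : ℤ) a.1).subtype '' Set.range (bI N (m : ℤ) a.1) := by
      ext x
      constructor
      · rintro ⟨i, rfl⟩
        exact ⟨_, Set.mem_range_self (Fin.cast (hdim a).symm i), rfl⟩
      · rintro ⟨_, ⟨b, rfl⟩, rfl⟩
        exact ⟨Fin.cast (hdim a) b, by simp [w]⟩
    rw [hrange, ← Submodule.map_span, (bI N (m : ℤ) a.1).span_eq, Submodule.map_top,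
      Submodule.range_subtype]
  let W : α → Matrix (Fin r) (Fin (dV N (m : ℤ))) ℚ := fun a => famMat N (m : ℤ) (w a)
  have hW : ∀ a, LinearIndependent ℚ (fun i => W a i) := fun a =>
    linearIndependent_famMat (w a) (fun i => I_le_V a.2.1 (hwmem a i)) (hwli a)
  have hinj : ∀ a b : α, Submodule.span ℚ (Set.range fun i => W a i) =
      Submodule.span ℚ (Set.range fun i => W b i) → a = b := by
    intro a b h
    have hI := I_eq_of_span_rows_eq a.2.1 b.2.1 (w a) (w b) (hwspan a) (hwspan b) h
    exact Subtype.ext (hc' (m : ℤ) a.1 b.1 a.2.2.1 b.2.2.1 (by rw [a.2.2.2]; exact hcm')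
      (by rw [b.2.2.2]; exact hcm') hI)
  have hNC := Fermat.Agent.GR.H.MinorsRowSpace.northcott_logHeight_minorsAll W hW hinj
  have hH : ∀ a : α, Height.logHeight (minorsAll (W a)) = Hpl N (m : ℤ) a.1 := fun a =>
    logHeight_minorsAll_eq_Hpl' a.2.1 (hdim a).symm (w a) (hwmem a) (hwli a)
  have hfin := hNC.finite_le B
  refine (hfin.image Subtype.val).subset ?_
  rintro D ⟨h1, h2, h3, h4⟩
  refine ⟨⟨D, h1, h2, h3⟩, ?_, rfl⟩
  show Height.logHeight (minorsAll (W ⟨D, h1, h2, h3⟩)) ≤ B
  rw [hH]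
  exact h4

end Fermat.Agent.GR.H.TopInst.NC
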