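/-
GATE-R / S17, leaf (TI-NC) of the TOP-INST split (helper41), part 2: the `northcott` field of
`Canon.HeightFrame` on helper10's carrier `TopInstCarrier.RDiv N` / `degHom`, with
`H m D := PL.Hpl N (m : ℤ) (D : Divisor _ _)`.

* `exists_northcott_RDiv N : ∃ c₁ : ℕ, ∀ (m e : ℕ) (B : ℝ), e + c₁ ≤ m →
    {D : RDiv N | degHom N D = e ∧ Hpl N (m : ℤ) ↑D ≤ B}.Finite`.
-/
import Fermat.Agent.GR.H.TopInst.NC
import Fermat.Agent.GR.H.TopInstCarrier

set_option autoImplicit false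

noncomputable section

open AlgebraicCurve ModularCurve
open Fermat.Agent.GR.H.PL Fermat.Agent.GR.H.TopInstCarrier

namespace Fermat.Agent.GR.H.TopInst.NC

local notation "Qb" => AlgebraicClosure ℚ

variable (N : ℕ) [NeZero N]

/-- **(TI-NC)** the `northcott` field of `HeightFrame` on `RDiv N`, for every `c₀ ≥ c₁`. -/
theorem exists_northcott_RDiv : ∃ c₁ : ℕ, ∀ (m e : ℕ) (B : ℝ), e + c₁ ≤ m →
    {D : RDiv N | degHom N D = e ∧
      Hpl N (m : ℤ) (D : Divisor Qb (FN N)) ≤ B}.Finite := by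
  obtain ⟨c₁, hc₁⟩ := exists_northcott N
  refine ⟨c₁, fun m e B hme => ?_⟩
  have hfin := hc₁ m e B hme
  refine (hfin.preimage (f := fun D : RDiv N => (D : Divisor Qb (FN N)))
    Subtype.val_injective.injOn).subset ?_
  rintro D ⟨hdeg, hH⟩
  refine ⟨D.nonneg, D.isRat, ?_, hH⟩
  rw [← coe_degHom, hdeg]

end Fermat.Agent.GR.H.TopInst.NC
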