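/-
GATE-R / S17, node GR-H-TOP-INST (helper10 = integrator), part 3: the `Leaves` fields that are
CLOSED on main, each VERBATIM as a field of `TopInst.Leaves`:

* `princ_field`          (helper43 `PL/Const.exists_section_of_principal`),
* `hs_eq_of_div0_field`  (helper43 `PL/Const.hV_eq_of_div0_eq`),
* `hs_mul_field`, `ML_field`   (helper44 `TopInst/MLFrame`, threshold from `PL.exists_threshold`),
* `northcott_field`      (helper41 `TopInst/NCDiv.exists_northcott_RDiv`),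

and `leaves_of_rest`: `Leaves N Good` from the remaining leaves (STAR, SMALL, MOVE).
-/
import Fermat.Agent.GR.H.TopInst
import Fermat.Agent.GR.H.PL.Const
import Fermat.Agent.GR.H.TopInst.MLFrame
import Fermat.Agent.GR.H.TopInst.NCDiv

set_option autoImplicit false
set_option linter.unusedSectionVars false

noncomputable section

open AlgebraicCurve ModularCurve

namespace Fermat.Agent.GR.H.TopInst.Plug

open Fermat.Agent.GR.H.TopInstCarrier Fermat.Agent.GR.H.TopInst.Data Fermat.Agent.GR.H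
open Fermat.Agent.RR Fermat.Agent.RR.Bound
open Fermat.Agent.GR.W.RatRep Fermat.Agent.GR.Top.S17Top

local notation "Qb" => AlgebraicClosure ℚ
local notation "GQ" => (AlgebraicClosure ℚ ≃ₐ[ℚ] AlgebraicClosure ℚ)

variable (N : ℕ) [NeZero N]

/-- **`Leaves.princ`** -/
theorem princ_field (E : RDiv N) (hE : clHom N E = 0) :
    ∃ s : Sec N, s.lev = degHom N E ∧ div0 s = E := by
  -- `E − e·∞` is principal
  have h1 : Pic0.mk (shift N E) = Pic0.mk 0 := by
    have := congrArg (Subtype.val : ↥(MW N) → JZero N) hE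
    rw [coe_clHom] at this
    rw [this, Pic0.mk_zero]
    rfl
  rw [mk_eq_mk_iff] at h1
  have h2 : ((shift N E : Divisor.degZero (K := Qb) (F := FN N)) : Divisor Qb (FN N))
      ∈ Divisor.principal (K := Qb) (F := FN N) := by
    have := (Divisor.principal (K := Qb) (F := FN N)).neg_mem h1
    simpa using this
  rw [coe_shift] at h2
  obtain ⟨s, hsV, hs0, hdiv⟩ := PL.exists_section_of_principal (N := N) E.nonneg (RDiv.isRatPL E)
    ((degHom N E : ℕ) : ℤ) (degree_coe E) h2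
  refine ⟨Sec.ofV (degHom N E) s hsV hs0, rfl, RDiv.ext' ?_⟩
  rw [coe_div0_eq]
  exact hdiv

/-- **`Leaves.hs_eq_of_div0`** -/
theorem hs_eq_of_div0_field (s s' : Sec N) (j : ℕ) (h : div0 s' = div0 s + j • infD N) :
    hsec N s' = hsec N s := by
  have h' := congrArg (fun D : RDiv N => (D : Divisor Qb (FN N))) h
  simp only [coe_add', coe_nsmul', coe_infD', coe_div0_eq] at h'
  exact PL.hV_eq_of_div0_eq (Sec.mem_V s) s.ne (Sec.mem_V s') s'.ne h'

/-- **`Leaves.hs_mul`** -/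
theorem hs_mul_field : ∀ M : ℕ, ∃ C : ℝ, ∀ s t u : Sec N, u.lev ≤ M →
    div0 u = div0 s + div0 t → |hsec N u - hsec N s - hsec N t| ≤ C :=
  MLFrame.hs_mul_frame N

/-- **`Leaves.ML`** -/
theorem ML_field : ∃ c : ℕ, ∀ M : ℕ, ∃ C : ℝ, ∀ (n : ℕ) (D : RDiv N) (s : Sec N), n ≤ M →
    degHom N D + s.lev + c ≤ n →
    |HN N n (D + div0 s) - ((n : ℝ) - s.lev - degHom N D - gam N) * hsec N s
      - HN N (n - s.lev) D| ≤ C := by
  obtain ⟨c, hc⟩ := PL.exists_threshold N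
  refine ⟨c.toNat, MLFrame.ML_frame N (c₀ := c.toNat) fun m D hD hm => hc m D hD ?_⟩
  have := Int.self_le_toNat c
  linarith

/-- **`Leaves.northcott`** -/
theorem northcott_field : ∃ c : ℕ, ∀ (n e : ℕ) (B : ℝ), e + c ≤ n →
    {D : RDiv N | degHom N D = e ∧ HN N n D ≤ B}.Finite :=
  NC.exists_northcott_RDiv N

/-- **`Leaves N Good` from the remaining leaves** (STAR, SMALL, MOVE). -/
theorem leaves_of_rest (Good : RDiv N → Prop)
    (good_zero : Good 0)
    (good_of_add : ∀ D D' : RDiv N, Good (D + D') → Good D)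
    (star : ∃ c : ℕ, ∀ M : ℕ, ∃ C : ℝ, ∀ (n : ℕ) (D₁ D₂ D₃ : RDiv N), n ≤ M →
      Good (D₁ + D₂ + D₃) → degHom N D₁ + degHom N D₂ + degHom N D₃ + c ≤ n →
      |HN N n (D₁ + D₂ + D₃) - HN N n (D₁ + D₂) - HN N n (D₁ + D₃) - HN N n (D₂ + D₃)
        + HN N n D₁ + HN N n D₂ + HN N n D₃| ≤ C)
    (starInf1 : ∃ c : ℕ, ∀ M : ℕ, ∃ C : ℝ, ∀ (n : ℕ) (D₁ D₂ : RDiv N), n ≤ M → Good (D₁ + D₂) →
      degHom N D₁ + degHom N D₂ + c + 1 ≤ n →
      |(HN N n (D₁ + D₂) - HN N (n - 1) (D₁ + D₂)) - (HN N n D₁ - HN N (n - 1) D₁)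
        - (HN N n D₂ - HN N (n - 1) D₂)| ≤ C)
    (starInf2 : ∃ c : ℕ, ∀ M : ℕ, ∃ C : ℝ, ∀ (n : ℕ) (D : RDiv N), n ≤ M → Good D →
      degHom N D + c + 2 ≤ n →
      |HN N n D - 2 * HN N (n - 1) D + HN N (n - 2) D| ≤ C)
    (small : ∃ c : ℕ, ∀ M : ℕ, ∃ C : ℝ, ∀ (n : ℕ) (D : RDiv N), n ≤ M → degHom N D + c ≤ n →
      ∃ (s : Sec N) (D' : RDiv N), s.lev = n ∧ div0 s = D + D' ∧
        ((n : ℝ) - degHom N D - gam N) * hsec N s ≤ HN N n D + C)
    (move1 : ∃ d : ℕ, ∀ (c : ↥(MW N)) (k : ℕ) (T : RDiv N), d ≤ k → Good T →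
      ∃ D : RDiv N, degHom N D = k ∧ clHom N D = c ∧ Good (D + T))
    (move2 : ∃ d : ℕ, ∀ (D T : RDiv N) (k : ℕ), Good (D + T) → degHom N D + d ≤ k →
      ∃ (s : Sec N) (D' : RDiv N), s.lev = k ∧ div0 s = D + D' ∧ Good (D + D' + T)) :
    Leaves N Good where
  good_zero := good_zero
  good_of_add := good_of_add
  princ := princ_field N
  hs_eq_of_div0 := hs_eq_of_div0_field N
  hs_mul := hs_mul_field N
  ML := ML_field N
  star := star
  starInf1 := starInf1
  starInf2 := starInf2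
  small := small
  northcott := northcott_field N
  move1 := move1
  move2 := move2

end Fermat.Agent.GR.H.TopInst.Plug
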