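/-
GATE-R / leaf TI-STAR (helper3).

The fields `star`, `starInf1`, `starInf2` of `TopInst.Leaves N Good` VERBATIM, for any predicate
`Good` on `RDiv N` which implies "reduced and off `∞`".

Chain: `Star/Frame` (star_bar / starInf1_bar / starInf2_bar) with its two binders discharged:
(B1) `Family.LTBar` from helper49's `HasLTGenBar.hasLT_genBar`, (B2) `SpecBar.AlphaBar` from
`Star/AlphaBarPlug` (helper63's `PL/EvPlug`).
-/
import Mathlib
import Fermat.Agent.GR.H.Star.Frame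
import Fermat.Agent.GR.H.Star.AlphaBarPlug
import Fermat.Agent.GR.H.Star.HasLTGenBar
import Fermat.Agent.GR.H.TopInst.Data

set_option autoImplicit false

noncomputable section

open AlgebraicCurve ModularCurve

namespace Fermat.Agent.GR.H.TopInst.Star

open Fermat.Agent.GR.H.TopInstCarrier Fermat.Agent.GR.H.TopInst.Data
open Fermat.Agent.GR.H.PL Fermat.Agent.GR.H.PL.EvPlug Fermat.Agent.GR.H.Star.SpecBar
  Fermat.Agent.GR.H.Star.Family Fermat.Agent.GR.H.Star.Frame Fermat.Agent.GR.H.Star.HasLTGenBar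

local notation "Qb" => AlgebraicClosure ℚ

variable (N : ℕ) [NeZero N]

/-- **(B1)**: (LT) on `X₀(N)` for the PL bases. -/
theorem ltBar : LTBar N (oscC N) := by
  intro e O hQ hres
  have hb : ∀ (L : ℕ) (j : Fin (dV N (L : ℤ))),
      bF N L j ∈ riemannRochSpace (Finsupp.single (oo N) (L : ℤ)) := by
    intro L j
    have h := bQ_mem_L (N := N) (L : ℤ) j
    unfold PL.twist at h
    rw [sub_zero] at h
    exact h
  have hspan : ∀ L : ℕ, riemannRochSpace (Finsupp.single (oo N) (L : ℤ)) ≤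
      Submodule.span Qb (Set.range (bF N L)) := by
    intro L f hf
    have hf' : f ∈ riemannRochSpace (twist (N := N) (L : ℤ) 0) := by
      unfold PL.twist
      rw [sub_zero]
      exact hf
    have h1 := (bVQb N (L : ℤ)).sum_repr ⟨f, hf'⟩
    have h2 := congrArg (Submodule.subtype _) h1
    rw [map_sum] at h2
    simp only [map_smul, Submodule.subtype_apply] at h2
    rw [← h2]
    refine Submodule.sum_mem _ fun j _ => Submodule.smul_mem _ _ (Submodule.subset_span ⟨j, ?_⟩)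
    have := congrFun (basisFun_bVQb (N := N) (L : ℤ)) j
    exact this.symm
  exact hasLT_genBar N O hQ hres (oo N) (bF N) hb hspan

variable {N}

theorem ltBar_mono {c c' : ℕ} (h : c ≤ c') (hLT : LTBar N c) : LTBar N c' := by
  intro e O hQ hres
  obtain ⟨a, d, H⟩ := hLT e O hQ hres
  exact ⟨a, d, fun L G hok => H L G (by omega)⟩

theorem alphaBar_mono {c c' : ℕ} (h : c ≤ c') (hα : AlphaBar N c) : AlphaBar N c' :=
  fun m d P hinj hoo hD hm => hα m d P hinj hoo hD (by omega)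

variable (N)

/-- both binders of `Star/Frame` with one threshold -/
theorem exists_threshold : ∃ c : ℕ, LTBar N c ∧ AlphaBar N c := by
  obtain ⟨cα, hα⟩ := Fermat.Agent.GR.H.Star.AlphaBarPlug.exists_alphaBar N
  exact ⟨max (oscC N) cα, ltBar_mono (le_max_left _ _) (ltBar N),
    alphaBar_mono (le_max_right _ _) hα⟩

/-- what the leaves need from `Good`: reduced and off `∞` -/
def GoodOK (Good : RDiv N → Prop) : Prop :=
  ∀ D : RDiv N, Good D →
    (∀ v, (D : Divisor Qb (FN N)) v ≤ 1) ∧ (D : Divisor Qb (FN N)) (PL.oo N) = 0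

variable {N}

theorem goodFam3 {Good : RDiv N → Prop} (hG : GoodOK N Good) {D₁ D₂ D₃ : RDiv N}
    (h : Good (D₁ + D₂ + D₃)) :
    GoodFam (N := N) ![(D₁ : Divisor Qb (FN N)), (D₂ : Divisor Qb (FN N)),
      (D₃ : Divisor Qb (FN N))] := by
  have hsum : ∑ a, ![(D₁ : Divisor Qb (FN N)), (D₂ : Divisor Qb (FN N)),
      (D₃ : Divisor Qb (FN N))] a = ((D₁ + D₂ + D₃ : RDiv N) : Divisor Qb (FN N)) := by
    simp [Fin.sum_univ_three]
  refine ⟨fun a => ?_, fun a => ?_, ?_, ?_⟩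
  · fin_cases a
    · exact D₁.2.1
    · exact D₂.2.1
    · exact D₃.2.1
  · fin_cases a
    · exact RDiv.isRatPL D₁
    · exact RDiv.isRatPL D₂
    · exact RDiv.isRatPL D₃
  · rw [hsum]; exact (hG _ h).1
  · rw [hsum]; exact (hG _ h).2

theorem goodFam2 {Good : RDiv N → Prop} (hG : GoodOK N Good) {D₁ D₂ : RDiv N}
    (h : Good (D₁ + D₂)) :
    GoodFam (N := N) ![(D₁ : Divisor Qb (FN N)), (D₂ : Divisor Qb (FN N))] := by
  have hsum : ∑ a, ![(D₁ : Divisor Qb (FN N)), (D₂ : Divisor Qb (FN N))] a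
      = ((D₁ + D₂ : RDiv N) : Divisor Qb (FN N)) := by
    simp [Fin.sum_univ_two]
  refine ⟨fun a => ?_, fun a => ?_, ?_, ?_⟩
  · fin_cases a
    · exact D₁.2.1
    · exact D₂.2.1
  · fin_cases a
    · exact RDiv.isRatPL D₁
    · exact RDiv.isRatPL D₂
  · rw [hsum]; exact (hG _ h).1
  · rw [hsum]; exact (hG _ h).2

theorem goodFam1 {Good : RDiv N → Prop} (hG : GoodOK N Good) {D : RDiv N} (h : Good D) :
    GoodFam (N := N) ![(D : Divisor Qb (FN N))] := by
  have hsum : ∑ a, ![(D : Divisor Qb (FN N))] a = (D : Divisor Qb (FN N)) := by simp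
  refine ⟨fun a => ?_, fun a => ?_, ?_, ?_⟩
  · fin_cases a; exact D.2.1
  · fin_cases a; exact RDiv.isRatPL D
  · rw [hsum]; exact (hG _ h).1
  · rw [hsum]; exact (hG _ h).2

/-- **`Leaves.star`** -/
theorem star_leaf {Good : RDiv N → Prop} (hG : GoodOK N Good) :
    ∃ c : ℕ, ∀ M : ℕ, ∃ C : ℝ, ∀ (n : ℕ) (D₁ D₂ D₃ : RDiv N), n ≤ M →
      Good (D₁ + D₂ + D₃) → degHom N D₁ + degHom N D₂ + degHom N D₃ + c ≤ n →
      |HN N n (D₁ + D₂ + D₃) - HN N n (D₁ + D₂) - HN N n (D₁ + D₃) - HN N n (D₂ + D₃)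
        + HN N n D₁ + HN N n D₂ + HN N n D₃| ≤ C := by
  obtain ⟨c, hLT, hα⟩ := exists_threshold N
  refine ⟨c, fun M => ?_⟩
  obtain ⟨C, hC⟩ := star_bar hLT hα M
  refine ⟨C, fun n D₁ D₂ D₃ hn hgood hdeg => ?_⟩
  exact hC n D₁ D₂ D₃ (degHom N D₁) (degHom N D₂) (degHom N D₃) hn (goodFam3 hG hgood)
    (degree_coe D₁) (degree_coe D₂) (degree_coe D₃) hdeg

/-- **`Leaves.starInf1`** -/
theorem starInf1_leaf {Good : RDiv N → Prop} (hG : GoodOK N Good) :
    ∃ c : ℕ, ∀ M : ℕ, ∃ C : ℝ, ∀ (n : ℕ) (D₁ D₂ : RDiv N), n ≤ M → Good (D₁ + D₂) →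
      degHom N D₁ + degHom N D₂ + c + 1 ≤ n →
      |(HN N n (D₁ + D₂) - HN N (n - 1) (D₁ + D₂)) - (HN N n D₁ - HN N (n - 1) D₁)
        - (HN N n D₂ - HN N (n - 1) D₂)| ≤ C := by
  obtain ⟨c, hLT, hα⟩ := exists_threshold N
  refine ⟨c, fun M => ?_⟩
  obtain ⟨C, hC⟩ := starInf1_bar hLT hα M
  refine ⟨C, fun n D₁ D₂ hn hgood hdeg => ?_⟩
  exact hC n D₁ D₂ (degHom N D₁) (degHom N D₂) hn (goodFam2 hG hgood)
    (degree_coe D₁) (degree_coe D₂) hdeg

/-- **`Leaves.starInf2`** -/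
theorem starInf2_leaf {Good : RDiv N → Prop} (hG : GoodOK N Good) :
    ∃ c : ℕ, ∀ M : ℕ, ∃ C : ℝ, ∀ (n : ℕ) (D : RDiv N), n ≤ M → Good D →
      degHom N D + c + 2 ≤ n →
      |HN N n D - 2 * HN N (n - 1) D + HN N (n - 2) D| ≤ C := by
  obtain ⟨c, hLT, hα⟩ := exists_threshold N
  refine ⟨c, fun M => ?_⟩
  obtain ⟨C, hC⟩ := starInf2_bar hLT hα M
  refine ⟨C, fun n D hn hgood hdeg => ?_⟩
  exact hC n D (degHom N D) hn (goodFam1 hG hgood) (degree_coe D) hdeg

end Fermat.Agent.GR.H.TopInst.Star
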