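/-
GATE-R / TOP-INST: all leaves assembled — `Leaves N (Move.Good N)` (helper3 plug of the landed
leaf files: Plug (helper10), Move (helper70), Small (helper62), Star (helper3)).
-/
import Fermat.Agent.GR.H.TopInst
import Fermat.Agent.GR.H.TopInst.Plug
import Fermat.Agent.GR.H.TopInst.Move
import Fermat.Agent.GR.H.TopInst.Small
import Fermat.Agent.GR.H.TopInst.Star

set_option autoImplicit false

namespace Fermat.Agent.GR.H.TopInst.LeavesAll

open Fermat.Agent.GR.H.TopInst Fermat.Agent.GR.H.TopInstCarrier

/-- the `Good` of the frame is reduced and off `∞` -/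
theorem good_ok (N : ℕ) [NeZero N] : Star.GoodOK N (Move.Good N) :=
  fun _ h => ⟨fun v => Move.Good.reduced h v, Move.Good.off_inf h⟩

/-- **all TOP-INST leaves** -/
theorem leaves (N : ℕ) [NeZero N] : Leaves N (Move.Good N) :=
  Plug.leaves_of_rest N (Move.Good N) (Move.good_zero N) (Move.good_of_add N)
    (Star.star_leaf (good_ok N)) (Star.starInf1_leaf (good_ok N)) (Star.starInf2_leaf (good_ok N))
    (Small.small_leaf N) (Move.move1 N) (Move.move2 N)

end Fermat.Agent.GR.H.TopInst.LeavesAll
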