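/-
GATE-R / S17, leaf (TI-ML) part 3 (helper44): the fields `hs_mul` and `ML` of
`TopInst.Leaves N Good` (helper10's integrator spec, board 5063) VERBATIM, in the vocabulary of
`TopInst/Data.lean` (`HN`, `hsec`, `gam`).
-/
import Fermat.Agent.GR.H.TopInst.MLFrame
import Fermat.Agent.GR.H.TopInst.Data

set_option autoImplicit false

noncomputable section

open AlgebraicCurve ModularCurve
open Fermat.Agent.GR.H.TopInstCarrier Fermat.Agent.GR.H.TopInst.Data

namespace Fermat.Agent.GR.H.TopInst.MLLeaf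

variable (N : ℕ) [NeZero N]

/-- **`Leaves.hs_mul`** verbatim. -/
theorem hs_mul : ∀ M : ℕ, ∃ C : ℝ, ∀ s t u : Sec N, u.lev ≤ M → div0 u = div0 s + div0 t →
    |hsec N u - hsec N s - hsec N t| ≤ C :=
  MLFrame.hs_mul_frame N

/-- **`Leaves.ML`** verbatim. -/
theorem ML : ∃ c : ℕ, ∀ M : ℕ, ∃ C : ℝ, ∀ (n : ℕ) (D : RDiv N) (s : Sec N), n ≤ M →
    degHom N D + s.lev + c ≤ n →
    |HN N n (D + div0 s) - ((n : ℝ) - s.lev - degHom N D - gam N) * hsec N s
      - HN N (n - s.lev) D| ≤ C := by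
  obtain ⟨c, hc⟩ := PL.exists_threshold N
  refine ⟨c.toNat, ?_⟩
  exact MLFrame.ML_frame N (c₀ := c.toNat) fun m D hD h =>
    hc m D hD (by have := Int.self_le_toNat c; omega)

end Fermat.Agent.GR.H.TopInst.MLLeaf
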