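/-
GATE-R / S17, node GR-H-TI-PRINC (helper12): the `princ` and `hs_eq_of_div0` fields of
`HeightFrame` (`GR/H/Canon.lean`) in the vocabulary of the rational frame `GR/H/PL`.

* `eq_zero_of_nonneg_of_degree_eq_zero` : an effective divisor of degree `0` is `0`;
* `exists_section_of_isPrincipal` (**PRINC**) : a rational effective divisor `E` of degree `k` with
  `E - k ∞` principal is `div0 k s` for a nonzero rational section `s ∈ V_k = L_ℚ(k ∞)`;
* `exists_section_of_mk_eq_zero` : the same from `Pic0.mk (E - k ∞) = 0`;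
* `exists_rat_smul_of_divOf_eq` : two nonzero rational functions with the same divisor differ by a
  nonzero rational constant;
* `hV_smul` : the height of the coordinate vector is invariant under rational scaling;
* `hV_eq_of_div0_eq` (**hs_eq_of_div0**) : `s ∈ V_k`, `s' ∈ V_{k'}` nonzero with
  `div0 k' s' = div0 k s + j ∞` have the same height;
* in the carrier vocabulary of `GR/H/TopInstCarrier` (helper10): `Sec.mem_V`, `hs`, and the two
  `HeightFrame` fields **`princ`** and **`hs_eq_of_div0`** verbatim.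
-/
import Fermat.Agent.GR.H.PL.Level
import Fermat.Agent.GR.H.TopInstCarrier

set_option autoImplicit false

noncomputable section

open AlgebraicCurve ModularCurve
open Fermat.Agent.GR.H.PL Fermat.Agent.RR.Bound

namespace Fermat.Agent.GR.H.TopInst.Princ

local notation "Qb" => AlgebraicClosure ℚ
local notation "GQ" => (AlgebraicClosure ℚ ≃ₐ[ℚ] AlgebraicClosure ℚ)

variable {N : ℕ} [NeZero N]

/-- an effective divisor of degree `0` is `0` -/
theorem eq_zero_of_nonneg_of_degree_eq_zero {D : Divisor Qb (FNb N)} (h0 : 0 ≤ D)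
    (hd : Divisor.degree D = 0) : D = 0 := by
  have := Fermat.Agent.RR.ModularBar.finiteResidues N
  rw [degree_eq_sum] at hd
  have hnn : ∀ v ∈ D.support, 0 ≤ D v * (v.deg : ℤ) := fun v _ =>
    mul_nonneg (Finsupp.le_def.mp h0 v) (by positivity)
  have hz := (Finset.sum_eq_zero_iff_of_nonneg hnn).mp hd
  ext v
  by_cases hv : v ∈ D.support
  · have h1 := hz v hv
    have hpos : (0 : ℤ) < v.deg := by exact_mod_cast Fermat.Agent.RRh45.deg_pos v
    rcases mul_eq_zero.mp h1 with h | h
    · simpa using h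
    · omega
  · simpa using Finsupp.notMem_support_iff.mp hv

/-- **PRINC**: a rational effective divisor `E` of degree `k` such that `E - k ∞` is principal is the
divisor of zeros `div0 k s` of a nonzero rational section `s ∈ V_k`. -/
theorem exists_section_of_isPrincipal {E : Divisor Qb (FNb N)} (hE0 : 0 ≤ E) (hE : IsRatDiv E)
    {k : ℤ} (hk : Divisor.degree E = k)
    (hprin : E - Finsupp.single (oo N) k ∈ Divisor.principal (K := Qb) (F := FNb N)) :
    ∃ s : FNb N, s ∈ V (N := N) k ∧ s ≠ 0 ∧ div0 k s = E := by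
  -- `L(k∞ - E) ≠ 0`
  have hne : riemannRochSpace (twist k E) ≠ ⊥ := by
    refine Fermat.Agent.RR.EffRep.riemannRochSpace_ne_bot_iff.mpr ⟨0, le_rfl, ?_⟩
    have : (0 : Divisor Qb (FNb N)) - twist k E = E - Finsupp.single (oo N) k := by
      unfold twist; abel
    rw [this]; exact hprin
  -- hence it contains a nonzero rational function (Speiser)
  have hI : I k E ≠ ⊥ := by
    intro h
    apply hne
    rw [← span_I hE k, h]
    simp
  obtain ⟨s, hs, hs0⟩ := (Submodule.ne_bot_iff _).mp hI
  refine ⟨s, I_le_V hE0 hs, hs0, ?_⟩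
  -- `k∞ - E + div s ≥ 0` of degree `0`
  have hnn := Fermat.Agent.RR.EffRep.nonneg_add_divOf (mem_I.1 hs).2 hs0
  have hdeg : Divisor.degree (twist k E + divOf Qb s) = 0 := by
    rw [map_add, degree_twist, degree_divOf, hk]; ring
  have hz := eq_zero_of_nonneg_of_degree_eq_zero hnn hdeg
  unfold twist at hz
  unfold div0
  have : divOf Qb s + Finsupp.single (oo N) k
      = (Finsupp.single (oo N) k - E + divOf Qb s) + E := by abel
  rw [this, hz, zero_add]

/-- **PRINC** from the vanishing of the class of `E - k ∞`. -/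
theorem exists_section_of_mk_eq_zero {E : Divisor Qb (FNb N)} (hE0 : 0 ≤ E) (hE : IsRatDiv E)
    {k : ℤ} (hk : Divisor.degree E = k)
    (h : E - Finsupp.single (oo N) k ∈ Divisor.degZero (K := Qb) (F := FNb N))
    (hcl : Pic0.mk ⟨E - Finsupp.single (oo N) k, h⟩ = 0) :
    ∃ s : FNb N, s ∈ V (N := N) k ∧ s ≠ 0 ∧ div0 k s = E := by
  refine exists_section_of_isPrincipal hE0 hE hk ?_
  have h1 := (Fermat.Agent.GR.W.RatRep.mk_eq_mk_iff
    (0 : Divisor.degZero (K := Qb) (F := FNb N)) ⟨E - Finsupp.single (oo N) k, h⟩).mp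
      (by rw [hcl]; rfl)
  simpa using h1

/-- a function without zeros and poles is a constant -/
theorem exists_const_of_divOf_eq_zero {t : FNb N} (ht0 : t ≠ 0) (ht : divOf Qb t = 0) :
    ∃ c : Qb, c ≠ 0 ∧ t = algebraMap Qb (FNb N) c := by
  have hmem : t ∈ riemannRochSpace (0 : Divisor Qb (FNb N)) := by
    rw [mem_riemannRochSpace_iff]
    intro v
    right
    have := congrArg (fun D : Divisor Qb (FNb N) => D v) ht
    simp only [divOf_apply ht0, Finsupp.coe_zero, Pi.zero_apply] at this
    simp [this]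
  have hone : (1 : FNb N) ∈ riemannRochSpace (0 : Divisor Qb (FNb N)) := by
    rw [mem_riemannRochSpace_iff]
    intro v
    right
    simp
  have hfr := Fermat.Agent.GR.W.RatRep.finrank_L_zero N
  obtain ⟨c, hc⟩ := (finrank_eq_one_iff_of_nonzero'
    (⟨1, hone⟩ : riemannRochSpace (0 : Divisor Qb (FNb N)))
    (by intro h; exact one_ne_zero (congrArg Subtype.val h))).mp hfr ⟨t, hmem⟩
  have hc' : t = c • (1 : FNb N) := by
    have := congrArg Subtype.val hc
    simpa using this.symm
  refine ⟨c, ?_, by rw [hc', Algebra.smul_def, mul_one]⟩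
  rintro rfl
  rw [zero_smul] at hc'
  exact ht0 hc'

/-- a `G_ℚ`-fixed element of `ℚ̄` is rational -/
theorem exists_rat_of_fixed (c : Qb) (hc : ∀ σ : GQ, σ c = c) : ∃ q : ℚ, algebraMap ℚ Qb q = c := by
  have : Algebra.IsAlgebraic ℚ Qb := AlgebraicClosure.isAlgebraic ℚ
  have : IsAlgClosure ℚ Qb := ⟨inferInstance, inferInstance⟩
  have : IsGalois ℚ Qb := IsAlgClosure.isGalois ℚ _
  exact (InfiniteGalois.mem_range_algebraMap_iff_fixed c).mpr hc

/-- two nonzero rational functions with the same divisor differ by a nonzero rational constant -/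
theorem exists_rat_smul_of_divOf_eq {s s' : FNb N} (hs : IsRatFun s) (hs' : IsRatFun s')
    (hs0 : s ≠ 0) (hs0' : s' ≠ 0) (hdiv : divOf Qb s' = divOf Qb s) :
    ∃ q : ℚ, q ≠ 0 ∧ s' = q • s := by
  have ht0 : s' * s⁻¹ ≠ 0 := mul_ne_zero hs0' (inv_ne_zero hs0)
  have ht : divOf Qb (s' * s⁻¹) = 0 := by
    ext v
    rw [divOf_apply ht0, Place.ord_mul _ hs0' (inv_ne_zero hs0), Place.ord_inv,
      ← divOf_apply hs0', ← divOf_apply hs0, hdiv]
    simp
  obtain ⟨c, hc0, hc⟩ := exists_const_of_divOf_eq_zero ht0 ht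
  have hfix : ∀ σ : GQ, σ c = c := by
    intro σ
    have h1 : gal N σ • (s' * s⁻¹) = s' * s⁻¹ := (hs'.mul hs.inv) σ
    rw [hc, SemilinearAut.smul_algebraMap] at h1
    exact (algebraMap Qb (FNb N)).injective h1
  obtain ⟨q, rfl⟩ := exists_rat_of_fixed c hfix
  refine ⟨q, fun h => hc0 (by rw [h, map_zero]), ?_⟩
  have h2 : s' = algebraMap Qb (FNb N) (algebraMap ℚ Qb q) * s := by
    rw [← hc, mul_assoc, inv_mul_cancel₀ hs0, mul_one]
  rw [h2, ← IsScalarTower.algebraMap_apply, Algebra.smul_def]

/-- the height of the coordinate vector is invariant under rational scaling -/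
theorem hV_smul (m : ℤ) {q : ℚ} (hq : q ≠ 0) {f : FNb N} (hf : f ∈ V (N := N) m) :
    hV N m (q • f) = hV N m f := by
  unfold hV
  rw [coordFun_smul q hf, Height.logHeight_smul_eq_logHeight _ hq]

/-- **hs_eq_of_div0**: nonzero sections `s ∈ V_k`, `s' ∈ V_{k'}` with
`div0 k' s' = div0 k s + j ∞` have the same height. -/
theorem hV_eq_of_div0_eq {k k' : ℕ} {s s' : FNb N} (hs : s ∈ V (N := N) (k : ℤ))
    (hs' : s' ∈ V (N := N) (k' : ℤ)) (hs0 : s ≠ 0) (hs0' : s' ≠ 0) (j : ℕ)
    (hdiv : div0 (k' : ℤ) s' = div0 (k : ℤ) s + j • Finsupp.single (oo N) 1) :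
    hV N (k' : ℤ) s' = hV N (k : ℤ) s := by
  -- degrees: `k' = k + j`
  have hdeg := congrArg Divisor.degree hdiv
  rw [map_add, degree_div0, degree_div0, map_nsmul, Divisor.degree_single,
    Fermat.Agent.GR.W.RatRep.deg_cuspInf N] at hdeg
  have hkk : k' = k + j := by
    have : (k' : ℤ) = k + j := by simpa using hdeg
    exact_mod_cast this
  subst hkk
  -- same divisor
  have hd : divOf Qb s' = divOf Qb s := by
    unfold div0 at hdiv
    have h1 : Finsupp.single (oo N) (((k + j : ℕ) : ℤ))
        = Finsupp.single (oo N) (k : ℤ) + j • Finsupp.single (oo N) (1 : ℤ) := by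
      rw [Finsupp.smul_single, ← Finsupp.single_add]
      congr 1
    rw [h1] at hdiv
    have h2 : divOf Qb s' + (Finsupp.single (oo N) (k : ℤ) + j • Finsupp.single (oo N) (1 : ℤ))
        = divOf Qb s + (Finsupp.single (oo N) (k : ℤ) + j • Finsupp.single (oo N) (1 : ℤ)) := by
      rw [hdiv]; abel
    exact add_right_cancel h2
  obtain ⟨q, hq0, rfl⟩ := exists_rat_smul_of_divOf_eq (mem_I.1 hs).1 (mem_I.1 hs').1 hs0 hs0' hd
  have hle : k ≤ k + j := Nat.le_add_right k j
  rw [hV_smul _ hq0 (V_le_of_le hle hs), hV_eq_of_le hle hs]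

/-! ### The two fields in the carrier vocabulary of `GR/H/TopInstCarrier` -/

open Fermat.Agent.GR.H.TopInstCarrier Fermat.Agent.GR.Top.S17Top

/-- a section of level `k` lies in `V_k` -/
theorem Sec.mem_V (s : Sec N) : s.f ∈ V (N := N) (s.lev : ℤ) := by
  refine mem_I.2 ⟨s.rat, ?_⟩
  unfold twist
  rw [sub_zero]
  exact s.mem

/-- the height of a section: the height of its coordinate vector in the basis `bV` of `V_k` -/
def hs (s : Sec N) : ℝ := hV N (s.lev : ℤ) s.f

theorem hs_def (s : Sec N) : hs s = hV N (s.lev : ℤ) s.f := rfl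

/-- the divisor of zeros of a section in the two vocabularies -/
theorem coe_div0_eq (s : Sec N) :
    ((TopInstCarrier.div0 s : RDiv N) : Divisor Qb (FNb N)) = PL.div0 (s.lev : ℤ) s.f := rfl

/-- **`HeightFrame.princ`**: every rational effective divisor linearly equivalent to `k ∞` is the
divisor of zeros of a rational section of level `k`. -/
theorem princ (E : RDiv N) (hE : clHom N E = 0) :
    ∃ s : Sec N, s.lev = degHom N E ∧ TopInstCarrier.div0 s = E := by
  have hcl : Pic0.mk (shift N E) = 0 := by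
    have := congrArg (Subtype.val : ↥(MW N) → JZero N) hE
    rw [coe_clHom] at this
    exact this
  obtain ⟨s, hsV, hs0, hdiv⟩ := exists_section_of_mk_eq_zero (N := N)
    (k := ((degHom N E : ℕ) : ℤ)) E.nonneg E.isRat (coe_degHom E).symm (shift N E).2 hcl
  refine ⟨⟨degHom N E, s, hs0, (mem_I.1 hsV).1, ?_⟩, rfl, ?_⟩
  · have := (mem_I.1 hsV).2
    unfold twist at this
    rwa [sub_zero] at this
  · apply Subtype.ext
    rw [coe_div0_eq]
    exact hdiv

/-- **`HeightFrame.hs_eq_of_div0`**: sections with the same divisor up to a multiple of `∞` have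
the same height. -/
theorem hs_eq_of_div0 (s s' : Sec N) (j : ℕ)
    (h : TopInstCarrier.div0 s' = TopInstCarrier.div0 s + j • infD N) : hs s' = hs s := by
  have h' := congrArg (Subtype.val : RDiv N → Divisor Qb (FNb N)) h
  rw [AddSubmonoid.coe_add, AddSubmonoidClass.coe_nsmul, coe_infD, coe_div0_eq, coe_div0_eq] at h'
  exact hV_eq_of_div0_eq (Sec.mem_V s) (Sec.mem_V s') s.ne s'.ne j h'

end Fermat.Agent.GR.H.TopInst.Princ
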