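/-
GATE-R / TOP-INST leaf (TI-STAR, shape part; helper23).  Mathlib only.

`HeightFrame.star / starInf1 / starInf2` (GR/H/Canon.lean) ask for ONE constant uniform over all
levels `N ≤ M` (hence over all degrees `≤ M`).  The producers (GR-H-STAR) give one constant per
tuple of parameters `(N, e₁, e₂, e₃)`.  This file is the finite-maximum bridge, stated for an
abstract additive monoid of divisors, with conclusions that are VERBATIM the three field types.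
-/
import Mathlib

set_option autoImplicit false

namespace Fermat.Agent.GR.H.TopInst.StarShape

/-- Finite uniformisation of constants: if `P a C` is monotone in `C` and for each `a` in a finite
set some constant works, then one constant works for all of them. -/
theorem exists_uniform_bound {α : Type*} (s : Finset α) (P : α → ℝ → Prop)
    (hmono : ∀ a C C', C ≤ C' → P a C → P a C') (h : ∀ a ∈ s, ∃ C, P a C) :
    ∃ C, ∀ a ∈ s, P a C := by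
  classical
  induction s using Finset.induction_on with
  | empty => exact ⟨0, fun a ha => absurd ha (Finset.notMem_empty a)⟩
  | insert a s ha ih =>
    obtain ⟨C₁, hC₁⟩ := h a (Finset.mem_insert_self a s)
    obtain ⟨C₂, hC₂⟩ := ih fun b hb => h b (Finset.mem_insert_of_mem hb)
    refine ⟨max C₁ C₂, fun b hb => ?_⟩
    rcases Finset.mem_insert.mp hb with rfl | hb
    · exact hmono _ _ _ (le_max_left _ _) hC₁
    · exact hmono _ _ _ (le_max_right _ _) (hC₂ b hb)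

variable {𝔇 : Type*} [AddCommMonoid 𝔇] (deg : 𝔇 →+ ℕ) (Good : 𝔇 → Prop) (H : ℕ → 𝔇 → ℝ)
  (c₀ : ℕ)

/-- (★): from one constant per `(N, e₁, e₂, e₃)` to the field `HeightFrame.star`. -/
theorem star_of_param
    (h : ∀ N e₁ e₂ e₃ : ℕ, e₁ + e₂ + e₃ + c₀ ≤ N → ∃ C : ℝ, ∀ D₁ D₂ D₃ : 𝔇,
      deg D₁ = e₁ → deg D₂ = e₂ → deg D₃ = e₃ → Good (D₁ + D₂ + D₃) →
      |H N (D₁ + D₂ + D₃) - H N (D₁ + D₂) - H N (D₁ + D₃) - H N (D₂ + D₃)
        + H N D₁ + H N D₂ + H N D₃| ≤ C) :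
    ∀ M : ℕ, ∃ C : ℝ, ∀ (N : ℕ) (D₁ D₂ D₃ : 𝔇), N ≤ M → Good (D₁ + D₂ + D₃) →
      deg D₁ + deg D₂ + deg D₃ + c₀ ≤ N →
      |H N (D₁ + D₂ + D₃) - H N (D₁ + D₂) - H N (D₁ + D₃) - H N (D₂ + D₃)
        + H N D₁ + H N D₂ + H N D₃| ≤ C := by
  intro M
  let s : Finset (ℕ × ℕ × ℕ × ℕ) :=
    (Finset.range (M + 1) ×ˢ Finset.range (M + 1) ×ˢ Finset.range (M + 1) ×ˢ
      Finset.range (M + 1)).filter fun a => a.2.1 + a.2.2.1 + a.2.2.2 + c₀ ≤ a.1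
  obtain ⟨C, hC⟩ := exists_uniform_bound s
    (fun a C => ∀ D₁ D₂ D₃ : 𝔇, deg D₁ = a.2.1 → deg D₂ = a.2.2.1 → deg D₃ = a.2.2.2 →
      Good (D₁ + D₂ + D₃) →
      |H a.1 (D₁ + D₂ + D₃) - H a.1 (D₁ + D₂) - H a.1 (D₁ + D₃) - H a.1 (D₂ + D₃)
        + H a.1 D₁ + H a.1 D₂ + H a.1 D₃| ≤ C)
    (fun a C C' hCC' hP D₁ D₂ D₃ h1 h2 h3 hg => (hP D₁ D₂ D₃ h1 h2 h3 hg).trans hCC')
    (fun a ha => h a.1 a.2.1 a.2.2.1 a.2.2.2 (Finset.mem_filter.mp ha).2)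
  refine ⟨C, fun N D₁ D₂ D₃ hNM hg hdeg => ?_⟩
  have hmem : (N, deg D₁, deg D₂, deg D₃) ∈ s := by
    refine Finset.mem_filter.mpr ⟨?_, hdeg⟩
    simp only [Finset.mem_product, Finset.mem_range]
    refine ⟨?_, ?_, ?_, ?_⟩ <;> omega
  exact hC _ hmem D₁ D₂ D₃ rfl rfl rfl hg

/-- (★∞1): from one constant per `(N, e₁, e₂)` to the field `HeightFrame.starInf1`. -/
theorem starInf1_of_param
    (h : ∀ N e₁ e₂ : ℕ, e₁ + e₂ + c₀ + 1 ≤ N → ∃ C : ℝ, ∀ D₁ D₂ : 𝔇,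
      deg D₁ = e₁ → deg D₂ = e₂ → Good (D₁ + D₂) →
      |(H N (D₁ + D₂) - H (N - 1) (D₁ + D₂)) - (H N D₁ - H (N - 1) D₁)
        - (H N D₂ - H (N - 1) D₂)| ≤ C) :
    ∀ M : ℕ, ∃ C : ℝ, ∀ (N : ℕ) (D₁ D₂ : 𝔇), N ≤ M → Good (D₁ + D₂) →
      deg D₁ + deg D₂ + c₀ + 1 ≤ N →
      |(H N (D₁ + D₂) - H (N - 1) (D₁ + D₂)) - (H N D₁ - H (N - 1) D₁)
        - (H N D₂ - H (N - 1) D₂)| ≤ C := by
  intro M
  let s : Finset (ℕ × ℕ × ℕ) :=
    (Finset.range (M + 1) ×ˢ Finset.range (M + 1) ×ˢ Finset.range (M + 1)).filter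
      fun a => a.2.1 + a.2.2 + c₀ + 1 ≤ a.1
  obtain ⟨C, hC⟩ := exists_uniform_bound s
    (fun a C => ∀ D₁ D₂ : 𝔇, deg D₁ = a.2.1 → deg D₂ = a.2.2 → Good (D₁ + D₂) →
      |(H a.1 (D₁ + D₂) - H (a.1 - 1) (D₁ + D₂)) - (H a.1 D₁ - H (a.1 - 1) D₁)
        - (H a.1 D₂ - H (a.1 - 1) D₂)| ≤ C)
    (fun a C C' hCC' hP D₁ D₂ h1 h2 hg => (hP D₁ D₂ h1 h2 hg).trans hCC')
    (fun a ha => h a.1 a.2.1 a.2.2 (Finset.mem_filter.mp ha).2)
  refine ⟨C, fun N D₁ D₂ hNM hg hdeg => ?_⟩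
  have hmem : (N, deg D₁, deg D₂) ∈ s := by
    refine Finset.mem_filter.mpr ⟨?_, hdeg⟩
    simp only [Finset.mem_product, Finset.mem_range]
    refine ⟨?_, ?_, ?_⟩ <;> omega
  exact hC _ hmem D₁ D₂ rfl rfl hg

/-- (★∞2): from one constant per `(N, e)` to the field `HeightFrame.starInf2`. -/
theorem starInf2_of_param
    (h : ∀ N e : ℕ, e + c₀ + 2 ≤ N → ∃ C : ℝ, ∀ D : 𝔇, deg D = e → Good D →
      |H N D - 2 * H (N - 1) D + H (N - 2) D| ≤ C) :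
    ∀ M : ℕ, ∃ C : ℝ, ∀ (N : ℕ) (D : 𝔇), N ≤ M → Good D → deg D + c₀ + 2 ≤ N →
      |H N D - 2 * H (N - 1) D + H (N - 2) D| ≤ C := by
  intro M
  let s : Finset (ℕ × ℕ) :=
    (Finset.range (M + 1) ×ˢ Finset.range (M + 1)).filter fun a => a.2 + c₀ + 2 ≤ a.1
  obtain ⟨C, hC⟩ := exists_uniform_bound s
    (fun a C => ∀ D : 𝔇, deg D = a.2 → Good D →
      |H a.1 D - 2 * H (a.1 - 1) D + H (a.1 - 2) D| ≤ C)
    (fun a C C' hCC' hP D h1 hg => (hP D h1 hg).trans hCC')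
    (fun a ha => h a.1 a.2 (Finset.mem_filter.mp ha).2)
  refine ⟨C, fun N D hNM hg hdeg => ?_⟩
  have hmem : (N, deg D) ∈ s := by
    refine Finset.mem_filter.mpr ⟨?_, hdeg⟩
    simp only [Finset.mem_product, Finset.mem_range]
    refine ⟨?_, ?_⟩ <;> omega
  exact hC _ hmem D rfl hg

end Fermat.Agent.GR.H.TopInst.StarShape
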